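import Mathlib.Algebra.Order.AbsoluteValue.Basic
import Mathlib.Algebra.BigOperators.Fin
import Mathlib.Analysis.SpecialFunctions.Pow.Real
import Mathlib.Data.Fintype.BigOperators
import Mathlib.FieldTheory.IntermediateField.Adjoin.Basic
import Mathlib.FieldTheory.IsAlgClosed.Basic

/-!
# Totally ramified elements, Eisenstein polynomials and digit expansions

A setting is an absolute value on an algebraic closure `Ω` of `K`, invariant under the
automorphisms, discrete on `K` with a finite residue field. Completeness is not needed.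
-/

set_option autoImplicit false

noncomputable section

open Polynomial

namespace Fermat.Agent.SerreMass

/-- A henselian discretely valued field with finite residue field, inside an algebraic closure. -/
structure Setting (K Ω : Type*) [Field K] [Field Ω] [Algebra K Ω] where
  ν : AbsoluteValue Ω ℝ
  nonarch : ∀ x y, ν (x + y) ≤ max (ν x) (ν y)
  invariant : ∀ (σ : Ω ≃ₐ[K] Ω) x, ν (σ x) = ν x
  ϖ : K
  ϖ_pos : 0 < ν (algebraMap K Ω ϖ)
  ϖ_lt : ν (algebraMap K Ω ϖ) < 1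
  discrete : ∀ a : K, a ≠ 0 → ∃ k : ℤ, ν (algebraMap K Ω a) = ν (algebraMap K Ω ϖ) ^ k
  R : Finset K
  zero_mem : (0 : K) ∈ R
  R_le : ∀ r ∈ R, ν (algebraMap K Ω r) ≤ 1
  rep : ∀ a : K, ν (algebraMap K Ω a) ≤ 1 → ∃! r, r ∈ R ∧ ν (algebraMap K Ω (a - r)) < 1

namespace Setting

variable {K Ω : Type*} [Field K] [Field Ω] [Algebra K Ω] (S : Setting K Ω)

/-- The absolute value on `K`. -/
def μ (a : K) : ℝ := S.ν (algebraMap K Ω a)

/-- The absolute value of the uniformizer. -/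
def ρ : ℝ := S.μ S.ϖ

/-- The size of the residue field. -/
def q : ℕ := S.R.card

theorem ρ_pos : 0 < S.ρ := S.ϖ_pos

theorem ρ_lt : S.ρ < 1 := S.ϖ_lt

theorem one_lt_q : 1 < S.q := by
  obtain ⟨r, ⟨hr, hr'⟩, -⟩ := S.rep 1 (by simp)
  refine Finset.one_lt_card.2 ⟨r, hr, 0, S.zero_mem, fun h => ?_⟩
  rw [h, sub_zero, map_one, map_one] at hr'
  exact lt_irrefl _ hr'

theorem ν_sum_le {ι : Type*} (s : Finset ι) {f : ι → Ω} {c : ℝ} (hc : 0 ≤ c)
    (h : ∀ i ∈ s, S.ν (f i) ≤ c) : S.ν (∑ i ∈ s, f i) ≤ c :=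
  Finset.sum_induction _ (fun y => S.ν y ≤ c)
    (fun a b ha hb => (S.nonarch a b).trans (max_le ha hb)) (by simp only [map_zero]; exact hc) h

theorem ν_sum_lt {ι : Type*} (s : Finset ι) {f : ι → Ω} {c : ℝ} (hc : 0 < c)
    (h : ∀ i ∈ s, S.ν (f i) < c) : S.ν (∑ i ∈ s, f i) < c :=
  Finset.sum_induction _ (fun y => S.ν y < c)
    (fun a b ha hb => (S.nonarch a b).trans_lt (max_lt ha hb)) (by simp only [map_zero]; exact hc) h

theorem ν_sub_le (a b : Ω) : S.ν (a - b) ≤ max (S.ν a) (S.ν b) := by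
  rw [sub_eq_add_neg, ← S.ν.map_neg b]; exact S.nonarch a (-b)

theorem ν_sub_swap (a b : Ω) : S.ν (a - b) = S.ν (b - a) := by
  rw [← S.ν.map_neg (b - a), neg_sub]

theorem ν_add_eq_left {a b : Ω} (h : S.ν b < S.ν a) : S.ν (a + b) = S.ν a := by
  refine le_antisymm ((S.nonarch a b).trans (max_le le_rfl h.le)) (not_lt.1 fun hlt => ?_)
  have h1 := S.ν_sub_le (a + b) b
  rw [add_sub_cancel_right] at h1
  exact absurd (max_lt hlt h) (not_lt.2 h1)

theorem ν_natCast_le (m : ℕ) : S.ν (m : Ω) ≤ 1 := by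
  rw [show (m : Ω) = ∑ _i ∈ Finset.range m, (1 : Ω) by simp]
  exact S.ν_sum_le _ zero_le_one fun _ _ => by simp

theorem μ_eq_zero {a : K} : S.μ a = 0 ↔ a = 0 := by
  rw [μ, map_eq_zero, FaithfulSMul.algebraMap_eq_zero_iff]

theorem μ_le_ρ_pow_of_lt {a : K} {N : ℕ} (h : S.μ a * S.ρ < S.ρ ^ N) : S.μ a ≤ S.ρ ^ N := by
  by_cases ha : a = 0
  · rw [S.μ_eq_zero.2 ha]; exact pow_nonneg S.ρ_pos.le N
  obtain ⟨k, hk⟩ := S.discrete a ha
  change S.μ a = S.ρ ^ k at hk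
  rw [hk, ← zpow_add_one₀ S.ρ_pos.ne', ← zpow_natCast S.ρ N,
    zpow_lt_zpow_iff_right_of_lt_one₀ S.ρ_pos S.ρ_lt] at h
  rw [hk, ← zpow_natCast S.ρ N, zpow_le_zpow_iff_right_of_lt_one₀ S.ρ_pos S.ρ_lt]
  omega

theorem μ_le_ρ_of_lt_one {a : K} (h : S.μ a < 1) : S.μ a ≤ S.ρ := by
  have := S.μ_le_ρ_pow_of_lt (a := a) (N := 1)
    (by rw [pow_one]; exact mul_lt_of_lt_one_left S.ρ_pos h)
  rwa [pow_one] at this

/-! ### Digit expansions -/

/-- The norms of `F` are powers of that of `z` and the residue field of `F` is that of `K`. -/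
structure Level (F : IntermediateField K Ω) (z : Ω) : Prop where
  mem : z ∈ F
  pos : 0 < S.ν z
  lt_one : S.ν z < 1
  norms : ∀ y ∈ F, y ≠ 0 → ∃ k : ℤ, S.ν y = S.ν z ^ k
  rep : ∀ y ∈ F, S.ν y ≤ 1 → ∃ r ∈ S.R, S.ν (y - algebraMap K Ω r) < 1

theorem eq_of_rep {y : Ω} {r r' : K} (hr : r ∈ S.R) (hr' : r' ∈ S.R)
    (h : S.ν (y - algebraMap K Ω r) < 1) (h' : S.ν (y - algebraMap K Ω r') < 1) : r = r' := by
  obtain ⟨r₀, -, huniq⟩ := S.rep r (S.R_le r hr)
  refine (huniq r ⟨hr, by simp⟩).trans (huniq r' ⟨hr', ?_⟩).symm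
  rw [map_sub, show algebraMap K Ω r - algebraMap K Ω r' =
    (y - algebraMap K Ω r') - (y - algebraMap K Ω r) by ring]
  exact (S.ν_sub_le _ _).trans_lt (max_lt h' h)

theorem μ_eq_one_of_mem {r : K} (hr : r ∈ S.R) (h0 : r ≠ 0) : S.μ r = 1 := by
  refine le_antisymm (S.R_le r hr) (not_lt.1 fun hlt => h0
    (S.eq_of_rep (y := 0) hr S.zero_mem ?_ ?_))
  · rw [zero_sub, AbsoluteValue.map_neg]; exact hlt
  · simp

/-- `∑ d k z ^ k`. -/
def dsum (z : Ω) {M : ℕ} (d : Fin M → K) : Ω := ∑ k, algebraMap K Ω (d k) * z ^ (k : ℕ)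

theorem dsum_cons (z : Ω) {M : ℕ} (r : K) (d : Fin M → K) :
    dsum z (Fin.cons r d : Fin (M + 1) → K) = algebraMap K Ω r + z * dsum z d := by
  rw [dsum, Fin.sum_univ_succ, Fin.cons_zero, Fin.val_zero, pow_zero, mul_one, dsum, Finset.mul_sum]
  congr 1
  refine Finset.sum_congr rfl fun k _ => ?_
  rw [Fin.cons_succ, Fin.val_succ, pow_succ]
  ring

theorem ν_dsum_le {z : Ω} (hz : S.ν z ≤ 1) {M : ℕ} {d : Fin M → K}
    (hd : ∀ k, d k ∈ S.R) : S.ν (dsum z d) ≤ 1 :=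
  S.ν_sum_le _ zero_le_one fun k _ => by
    rw [map_mul, map_pow]
    exact mul_le_one₀ (S.R_le _ (hd k)) (pow_nonneg (S.ν.nonneg z) _)
      (pow_le_one₀ (S.ν.nonneg z) hz)

theorem dsum_mem {F : IntermediateField K Ω} {z : Ω} (hz : z ∈ F) {M : ℕ} (d : Fin M → K) :
    dsum z d ∈ F :=
  sum_mem fun _ _ => mul_mem (F.algebraMap_mem _) (pow_mem hz _)

namespace Level

variable {S} {F : IntermediateField K Ω} {z : Ω} (hL : S.Level F z)

include hL in
theorem div_le_one {y : Ω} (hy : y ∈ F) (h : S.ν y < 1) : S.ν (y / z) ≤ 1 := by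
  by_cases h0 : y = 0
  · simp [h0]
  obtain ⟨k, hk⟩ := hL.norms y hy h0
  rw [hk, ← zpow_zero (S.ν z), zpow_lt_zpow_iff_right_of_lt_one₀ hL.pos hL.lt_one] at h
  rw [map_div₀, hk, _root_.div_le_one hL.pos]
  conv_rhs => rw [← zpow_one (S.ν z)]
  rw [zpow_le_zpow_iff_right_of_lt_one₀ hL.pos hL.lt_one]
  omega

include hL in
theorem exists_digits : ∀ (M : ℕ) (y : Ω), y ∈ F → S.ν y ≤ 1 →
    ∃ d ∈ Fintype.piFinset fun _ : Fin M => S.R, S.ν (y - dsum z d) ≤ S.ν z ^ M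
  | 0, y, _, hy => ⟨Fin.elim0, Fintype.mem_piFinset.2 fun k => k.elim0, by simpa [dsum] using hy⟩
  | M + 1, y, hyF, hy => by
    obtain ⟨r, hr, hr'⟩ := hL.rep y hyF hy
    have hmem : y - algebraMap K Ω r ∈ F := sub_mem hyF (F.algebraMap_mem r)
    obtain ⟨d, hd, hd'⟩ := exists_digits M ((y - algebraMap K Ω r) / z) (div_mem hmem hL.mem)
      (hL.div_le_one hmem hr')
    refine ⟨Fin.cons r d, Fintype.mem_piFinset.2 (Fin.forall_fin_succ.2
      ⟨by simpa using hr, fun k => by simpa using Fintype.mem_piFinset.1 hd k⟩), ?_⟩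
    have hz0 : z ≠ 0 := fun e => hL.pos.ne' (by rw [e, map_zero])
    rw [dsum_cons, show y - (algebraMap K Ω r + z * dsum z d) =
        ((y - algebraMap K Ω r) / z - dsum z d) * z by field_simp; ring, map_mul, pow_succ]
    exact mul_le_mul_of_nonneg_right hd' hL.pos.le

include hL in
theorem digits_unique : ∀ {M : ℕ} {d d' : Fin M → K},
    (∀ k, d k ∈ S.R) → (∀ k, d' k ∈ S.R) →
      S.ν (dsum z d - dsum z d') ≤ S.ν z ^ M → d = d'
  | 0, d, d', _, _, _ => funext fun k => k.elim0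
  | M + 1, d, d', hd, hd', h => by
    rw [← Fin.cons_self_tail d, ← Fin.cons_self_tail d'] at h ⊢
    rw [dsum_cons, dsum_cons] at h
    have ht := S.ν_dsum_le hL.lt_one.le (d := Fin.tail d) fun k => hd k.succ
    have ht' := S.ν_dsum_le hL.lt_one.le (d := Fin.tail d') fun k => hd' k.succ
    have h0 : d 0 = d' 0 := by
      refine S.eq_of_rep (y := algebraMap K Ω (d 0)) (hd 0) (hd' 0) (by simp) ?_
      rw [show algebraMap K Ω (d 0) - algebraMap K Ω (d' 0) =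
        (algebraMap K Ω (d 0) + z * dsum z (Fin.tail d) -
          (algebraMap K Ω (d' 0) + z * dsum z (Fin.tail d'))) -
            z * (dsum z (Fin.tail d) - dsum z (Fin.tail d')) by ring]
      refine (S.ν_sub_le _ _).trans_lt (max_lt
        (h.trans_lt (pow_lt_one₀ hL.pos.le hL.lt_one M.succ_ne_zero)) ?_)
      rw [map_mul]
      exact mul_lt_one_of_nonneg_of_lt_one_left hL.pos.le hL.lt_one
        ((S.ν_sub_le _ _).trans (max_le ht ht'))
    rw [h0] at h ⊢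
    rw [show algebraMap K Ω (d' 0) + z * dsum z (Fin.tail d) -
        (algebraMap K Ω (d' 0) + z * dsum z (Fin.tail d')) =
          z * (dsum z (Fin.tail d) - dsum z (Fin.tail d')) by ring, map_mul, pow_succ'] at h
    rw [digits_unique (d := Fin.tail d) (d' := Fin.tail d') (fun k => hd k.succ)
      (fun k => hd' k.succ) (le_of_mul_le_mul_left h hL.pos)]

end Level

/-- Digit vectors of the multiples of the uniformizer. -/
def digitsZero (m : ℕ) : Finset (Fin (m + 2) → K) :=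
  Fintype.piFinset (Fin.cons {0} fun _ => S.R)

open scoped Classical in
/-- Digit vectors of the uniformizers. -/
def digitsUnif (m : ℕ) : Finset (Fin (m + 2) → K) :=
  Fintype.piFinset (Fin.cons {0} (Fin.cons (S.R.erase 0) fun _ => S.R))

theorem card_digitsZero (m : ℕ) : (S.digitsZero m).card = S.q ^ (m + 1) := by
  simp [digitsZero, Fin.prod_univ_succ, q, pow_succ', Fintype.card_piFinset]

theorem card_digitsUnif (m : ℕ) : (S.digitsUnif m).card = (S.q - 1) * S.q ^ m := by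
  classical
  simp [digitsUnif, Fin.prod_univ_succ, q, Fintype.card_piFinset,
    Finset.card_erase_of_mem S.zero_mem]

theorem mem_digitsZero {m : ℕ} {d : Fin (m + 2) → K} :
    d ∈ S.digitsZero m ↔ d 0 = 0 ∧ ∀ k, d k ∈ S.R := by
  rw [digitsZero, Fintype.mem_piFinset, Fin.forall_fin_succ]
  simp only [Fin.cons_zero, Fin.cons_succ, Finset.mem_singleton]
  exact ⟨fun h => ⟨h.1, Fin.forall_fin_succ.2 ⟨h.1 ▸ S.zero_mem, h.2⟩⟩,
    fun h => ⟨h.1, fun k => h.2 k.succ⟩⟩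

theorem mem_digitsUnif {m : ℕ} {d : Fin (m + 2) → K} :
    d ∈ S.digitsUnif m ↔ d 0 = 0 ∧ d 1 ≠ 0 ∧ ∀ k, d k ∈ S.R := by
  classical
  rw [digitsUnif, Fintype.mem_piFinset, Fin.forall_fin_succ]
  simp only [Fin.cons_zero, Fin.cons_succ, Finset.mem_singleton]
  constructor
  · intro h
    have h1 := h.2 0
    rw [Fin.cons_zero, Finset.mem_erase, Fin.succ_zero_eq_one] at h1
    refine ⟨h.1, h1.1, Fin.forall_fin_succ.2 ⟨h.1 ▸ S.zero_mem, Fin.forall_fin_succ.2
      ⟨by rw [Fin.succ_zero_eq_one]; exact h1.2, fun k => by simpa using h.2 k.succ⟩⟩⟩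
  · rintro ⟨h0, h1, hd⟩
    refine ⟨h0, Fin.forall_fin_succ.2 ⟨?_, fun k => by simpa using hd k.succ.succ⟩⟩
    rw [Fin.cons_zero, Finset.mem_erase, Fin.succ_zero_eq_one]
    exact ⟨h1, hd 1⟩

theorem digitsUnif_subset (m : ℕ) : S.digitsUnif m ⊆ S.digitsZero m := fun _ hd => by
  obtain ⟨h0, -, h⟩ := S.mem_digitsUnif.1 hd
  exact S.mem_digitsZero.2 ⟨h0, h⟩

theorem ν_dsum_digitsZero {z : Ω} (hz : S.ν z ≤ 1) {m : ℕ} {d : Fin (m + 2) → K}
    (hd : d ∈ S.digitsZero m) : S.ν (dsum z d) ≤ S.ν z := by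
  obtain ⟨h0, h⟩ := S.mem_digitsZero.1 hd
  rw [← Fin.cons_self_tail d, dsum_cons, h0, map_zero, zero_add, map_mul]
  exact mul_le_of_le_one_right (S.ν.nonneg z) (S.ν_dsum_le hz fun k => h k.succ)

theorem ν_dsum_digitsUnif {z : Ω} (hz : S.ν z < 1) (hz0 : 0 < S.ν z) {m : ℕ}
    {d : Fin (m + 2) → K} (hd : d ∈ S.digitsUnif m) : S.ν (dsum z d) = S.ν z := by
  obtain ⟨h0, h1, h⟩ := S.mem_digitsUnif.1 hd
  rw [← Fin.cons_self_tail d, dsum_cons, h0, map_zero, zero_add, map_mul,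
    ← Fin.cons_self_tail (Fin.tail d), dsum_cons]
  have he : S.ν (algebraMap K Ω (Fin.tail d 0)) = 1 :=
    S.μ_eq_one_of_mem (h _) (by simpa [Fin.tail] using h1)
  rw [S.ν_add_eq_left, he, mul_one]
  rw [he, map_mul]
  exact mul_lt_one_of_nonneg_of_lt_one_left hz0.le hz
    (S.ν_dsum_le hz.le fun k => h k.succ.succ)

variable {S} in
theorem Level.exists_digitsZero {F : IntermediateField K Ω} {z : Ω} (hL : S.Level F z) (m : ℕ)
    {y : Ω} (hy : y ∈ F) (h : S.ν y ≤ S.ν z) :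
    ∃ d ∈ S.digitsZero m, S.ν (y - dsum z d) ≤ S.ν z ^ (m + 2) := by
  obtain ⟨d, hd, hd'⟩ := hL.exists_digits (m + 2) y hy (h.trans hL.lt_one.le)
  have hR : ∀ k, d k ∈ S.R := Fintype.mem_piFinset.1 hd
  refine ⟨d, S.mem_digitsZero.2 ⟨?_, hR⟩, hd'⟩
  refine S.eq_of_rep (y := y) (hR 0) S.zero_mem ?_ (by simpa using h.trans_lt hL.lt_one)
  have e : y - algebraMap K Ω (d 0) = (y - dsum z d) + z * dsum z (Fin.tail d) := by
    conv_rhs => rw [← Fin.cons_self_tail d, dsum_cons, Fin.tail_cons]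
    ring
  rw [e]
  refine (S.nonarch _ _).trans_lt (max_lt
    (hd'.trans_lt (pow_lt_one₀ hL.pos.le hL.lt_one (Nat.succ_ne_zero _))) ?_)
  rw [map_mul]
  exact mul_lt_one_of_nonneg_of_lt_one_left hL.pos.le hL.lt_one
    (S.ν_dsum_le hL.lt_one.le fun k => hR k.succ)

variable {S} in
theorem Level.exists_digitsUnif {F : IntermediateField K Ω} {z : Ω} (hL : S.Level F z) (m : ℕ)
    {y : Ω} (hy : y ∈ F) (h : S.ν y = S.ν z) :
    ∃ d ∈ S.digitsUnif m, S.ν (y - dsum z d) ≤ S.ν z ^ (m + 2) := by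
  obtain ⟨d, hd, hd'⟩ := hL.exists_digitsZero m hy h.le
  obtain ⟨h0, hR⟩ := S.mem_digitsZero.1 hd
  refine ⟨d, S.mem_digitsUnif.2 ⟨h0, fun h1 => ?_, hR⟩, hd'⟩
  have hsmall : S.ν (dsum z d) < S.ν z := by
    rw [← Fin.cons_self_tail d, dsum_cons, h0, map_zero, zero_add, map_mul,
      ← Fin.cons_self_tail (Fin.tail d), dsum_cons,
      show Fin.tail d 0 = 0 by simpa [Fin.tail] using h1, map_zero, zero_add]
    refine mul_lt_of_lt_one_right hL.pos ?_
    rw [map_mul]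
    exact mul_lt_one_of_nonneg_of_lt_one_left hL.pos.le hL.lt_one
      (S.ν_dsum_le hL.lt_one.le fun k => hR k.succ.succ)
  have h2 : S.ν (y - dsum z d) < S.ν z :=
    hd'.trans_lt (pow_lt_self_of_lt_one₀ hL.pos hL.lt_one (by omega))
  have h3 := S.nonarch (y - dsum z d) (dsum z d)
  rw [sub_add_cancel, h] at h3
  exact absurd (max_lt h2 hsmall) (not_lt.2 h3)

theorem level_bot : S.Level ⊥ (algebraMap K Ω S.ϖ) where
  mem := IntermediateField.algebraMap_mem _ _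
  pos := S.ϖ_pos
  lt_one := S.ϖ_lt
  norms y hy hy0 := by
    obtain ⟨a, rfl⟩ := IntermediateField.mem_bot.1 hy
    exact S.discrete a fun e => hy0 (by rw [e, map_zero])
  rep y hy h := by
    obtain ⟨a, rfl⟩ := IntermediateField.mem_bot.1 hy
    obtain ⟨r, ⟨hr, hr'⟩, -⟩ := S.rep a h
    exact ⟨r, hr, by rwa [← map_sub]⟩

/-! ### Totally ramified elements -/

/-- `ρ ^ (1 / n)`. -/
def t (n : ℕ) : ℝ := S.ρ ^ ((n : ℝ)⁻¹)

variable {n : ℕ} (hn : n ≠ 0)

include hn in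
theorem t_pow : S.t n ^ n = S.ρ := Real.rpow_inv_natCast_pow S.ρ_pos.le hn

theorem t_pos : 0 < S.t n := Real.rpow_pos_of_pos S.ρ_pos _

include hn in
theorem t_lt_one : S.t n < 1 :=
  Real.rpow_lt_one S.ρ_pos.le S.ρ_lt (inv_pos.2 (by exact_mod_cast Nat.pos_of_ne_zero hn))

include hn in
theorem ν_eq_t {x : Ω} (hx : S.ν x ^ n = S.ρ) : S.ν x = S.t n :=
  (pow_left_inj₀ (S.ν.nonneg x) S.t_pos.le hn).1 (hx.trans (S.t_pow hn).symm)

include hn in
theorem ν_term {x : Ω} (hx : S.ν x ^ n = S.ρ) (a : K) (i : ℕ) (ha : a ≠ 0) :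
    ∃ k : ℤ, S.ν (algebraMap K Ω a * x ^ i) = S.t n ^ (k * n + i) := by
  obtain ⟨k, hk⟩ := S.discrete a ha
  refine ⟨k, ?_⟩
  rw [map_mul, map_pow, S.ν_eq_t hn hx, hk, show S.ν (algebraMap K Ω S.ϖ) = S.ρ from rfl,
    ← S.t_pow hn, ← zpow_natCast, ← zpow_natCast, ← zpow_mul, ← zpow_add₀ S.t_pos.ne', mul_comm]

include hn in
/-- The largest term determines the absolute value. -/
theorem exists_max_term {x : Ω} (hx : S.ν x ^ n = S.ρ) (a : ℕ → K) :
    ∃ i < n, S.ν (∑ j ∈ Finset.range n, algebraMap K Ω (a j) * x ^ j) =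
        S.ν (algebraMap K Ω (a i) * x ^ i) ∧
      ∀ j < n, S.ν (algebraMap K Ω (a j) * x ^ j) ≤ S.ν (algebraMap K Ω (a i) * x ^ i) := by
  obtain ⟨i, hi, hmax⟩ := Finset.exists_max_image (Finset.range n)
    (fun j => S.ν (algebraMap K Ω (a j) * x ^ j)) ⟨0, Finset.mem_range.2 (Nat.pos_of_ne_zero hn)⟩
  refine ⟨i, Finset.mem_range.1 hi, ?_, fun j hj => hmax j (Finset.mem_range.2 hj)⟩
  by_cases hai : a i = 0
  · have hz : ∀ j ∈ Finset.range n, algebraMap K Ω (a j) * x ^ j = 0 := fun j hj => by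
      have := hmax j hj
      rw [hai, map_zero, zero_mul, map_zero] at this
      exact S.ν.eq_zero.1 (le_antisymm this (S.ν.nonneg _))
    rw [Finset.sum_eq_zero hz, hz i hi]
  rw [← Finset.add_sum_erase _ _ hi]
  refine S.ν_add_eq_left (S.ν_sum_lt _ ?_ fun j hj => ?_)
  · obtain ⟨k, hk⟩ := S.ν_term hn hx (a i) i hai
    rw [hk]; exact zpow_pos S.t_pos _
  rw [Finset.mem_erase, Finset.mem_range] at hj
  refine (hmax j (Finset.mem_range.2 hj.2)).lt_of_ne fun he => ?_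
  obtain ⟨k, hk⟩ := S.ν_term hn hx (a i) i hai
  by_cases haj : a j = 0
  · simp only [haj, map_zero, zero_mul] at he
    exact (zpow_pos (S.t_pos (n := n)) (k * n + i)).ne' (hk ▸ he.symm)
  obtain ⟨k', hk'⟩ := S.ν_term hn hx (a j) j haj
  simp only [hk, hk'] at he
  have he' := zpow_right_injective₀ S.t_pos (S.t_lt_one hn).ne he
  refine hj.1 ?_
  have h1 : ((k' * n + j : ℤ) % n) = ((k * n + i : ℤ) % n) := by rw [he']
  rw [Int.mul_add_emod_self_right, Int.mul_add_emod_self_right] at h1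
  have := Finset.mem_range.1 hi
  norm_cast at h1
  rwa [Nat.mod_eq_of_lt hj.2, Nat.mod_eq_of_lt this] at h1

include hn in
theorem coeff_le {x : Ω} (hx : S.ν x ^ n = S.ρ) (a : ℕ → K) {i : ℕ} (hi : i < n) :
    S.μ (a i) * S.t n ^ i ≤ S.ν (∑ j ∈ Finset.range n, algebraMap K Ω (a j) * x ^ j) := by
  obtain ⟨i₀, -, he, hmax⟩ := S.exists_max_term hn hx a
  refine le_of_eq_of_le ?_ ((hmax i hi).trans he.ge)
  rw [map_mul, map_pow, S.ν_eq_t hn hx]
  rfl

include hn in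
theorem coeff_eq_zero {x : Ω} (hx : S.ν x ^ n = S.ρ) {P : K[X]} (hP : P.natDegree < n)
    (h : aeval x P = 0) : P = 0 := by
  ext i
  rw [coeff_zero]
  rcases lt_or_ge i n with hi | hi
  · have h1 := S.coeff_le hn hx P.coeff hi
    simp only [← Algebra.smul_def] at h1
    rw [← aeval_eq_sum_range' hP, h, map_zero] at h1
    exact S.μ_eq_zero.1 (le_antisymm
      (nonpos_of_mul_nonpos_left h1 (pow_pos S.t_pos i)) (S.ν.nonneg _))
  · exact coeff_eq_zero_of_natDegree_lt (hP.trans_le hi)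

/-- The Eisenstein condition on the first `n` coefficients. -/
def IsEis (n : ℕ) (a : ℕ → K) : Prop := S.μ (a 0) = S.ρ ∧ ∀ i < n, S.μ (a i) ≤ S.ρ

/-- `X ^ n + ∑ a i X ^ i`. -/
def eisPoly (n : ℕ) (a : ℕ → K) : K[X] :=
  Polynomial.X ^ n + ∑ i ∈ Finset.range n, Polynomial.C (a i) * Polynomial.X ^ i

theorem degree_eisSum_lt (n : ℕ) (a : ℕ → K) :
    (∑ i ∈ Finset.range n, Polynomial.C (a i) * Polynomial.X ^ i).degree < (n : WithBot ℕ) :=
  (degree_sum_le _ _).trans_lt ((Finset.sup_lt_iff (WithBot.bot_lt_coe n)).2 fun _ hi =>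
    (degree_C_mul_X_pow_le _ _).trans_lt (WithBot.coe_lt_coe.2 (Finset.mem_range.1 hi)))

theorem eisPoly_monic (n : ℕ) (a : ℕ → K) : (eisPoly n a).Monic :=
  monic_X_pow_add (degree_eisSum_lt n a)

theorem eisPoly_natDegree (n : ℕ) (a : ℕ → K) : (eisPoly n a).natDegree = n :=
  natDegree_eq_of_degree_eq_some (by
    rw [eisPoly, degree_add_eq_left_of_degree_lt] <;> rw [degree_X_pow]
    exact degree_eisSum_lt n a)

theorem coeff_eisPoly {n : ℕ} (a : ℕ → K) {i : ℕ} (hi : i < n) : (eisPoly n a).coeff i = a i := by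
  simp [eisPoly, finsetSum_coeff, coeff_X_pow, hi.ne, hi]

theorem aeval_eisPoly (n : ℕ) (a : ℕ → K) (y : Ω) :
    aeval y (eisPoly n a) = y ^ n + ∑ i ∈ Finset.range n, algebraMap K Ω (a i) * y ^ i := by
  simp [eisPoly]

include hn in
/-- The roots of Eisenstein polynomials. -/
theorem ν_root {a : ℕ → K} (ha : S.IsEis n a) {y : Ω} (hy : aeval y (eisPoly n a) = 0) :
    S.ν y ^ n = S.ρ := by
  rw [aeval_eisPoly, add_eq_zero_iff_eq_neg] at hy
  have h1 := congrArg S.ν hy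
  rw [map_pow, S.ν.map_neg] at h1
  have hylt : S.ν y < 1 := by
    by_contra hge
    rw [not_lt] at hge
    have h2 : S.ν y ^ n ≤ S.ρ * S.ν y ^ (n - 1) := by
      rw [h1]
      refine S.ν_sum_le _ (by have := S.ρ_pos; positivity) fun i hi => ?_
      rw [map_mul, map_pow]
      exact mul_le_mul (ha.2 i (Finset.mem_range.1 hi))
        (pow_le_pow_right₀ hge (by have := Finset.mem_range.1 hi; omega))
        (pow_nonneg (S.ν.nonneg y) i) S.ρ_pos.le
    rw [show n = n - 1 + 1 by omega, pow_succ'] at h2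
    simp only [Nat.add_sub_cancel] at h2
    have := le_of_mul_le_mul_right h2 (by positivity)
    linarith [S.ρ_lt]
  rw [h1, ← Finset.add_sum_erase _ _ (Finset.mem_range.2 (Nat.pos_of_ne_zero hn)), pow_zero,
    mul_one, S.ν_add_eq_left]
  · exact ha.1
  change _ < S.μ (a 0)
  rw [ha.1]
  refine S.ν_sum_lt _ S.ρ_pos fun i hi => ?_
  rw [Finset.mem_erase, Finset.mem_range] at hi
  rw [map_mul, map_pow]
  calc S.μ (a i) * S.ν y ^ i ≤ S.ρ * S.ν y ^ i :=
        mul_le_mul_of_nonneg_right (ha.2 i hi.2) (pow_nonneg (S.ν.nonneg y) i)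
    _ < S.ρ := mul_lt_of_lt_one_right S.ρ_pos (pow_lt_one₀ (S.ν.nonneg y) hylt hi.1)

include hn in
theorem minpoly_eq_eisPoly {a : ℕ → K} (ha : S.IsEis n a) {y : Ω}
    (hy : aeval y (eisPoly n a) = 0) : minpoly K y = eisPoly n a := by
  have hint : IsIntegral K y := ⟨_, eisPoly_monic n a, hy⟩
  have hle : n ≤ (minpoly K y).natDegree := not_lt.1 fun hlt =>
    minpoly.ne_zero hint (S.coeff_eq_zero hn (S.ν_root hn ha hy) hlt (minpoly.aeval K y))
  exact (eq_of_monic_of_dvd_of_natDegree_le (minpoly.monic hint) (eisPoly_monic n a)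
    (minpoly.dvd K y hy) (by rw [eisPoly_natDegree]; exact hle)).symm

include hn in
/-- The minimal polynomial of a totally ramified element is Eisenstein. -/
theorem isEis_minpoly {x : Ω} (hint : IsIntegral K x) (hd : (minpoly K x).natDegree = n)
    (hx : S.ν x ^ n = S.ρ) :
    S.IsEis n (minpoly K x).coeff ∧ eisPoly n (minpoly K x).coeff = minpoly K x := by
  have he : eisPoly n (minpoly K x).coeff = minpoly K x := by
    rw [← hd, eisPoly, ← (minpoly.monic hint).as_sum]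
  refine ⟨?_, he⟩
  have h0 : aeval x (eisPoly n (minpoly K x).coeff) = 0 := by rw [he, minpoly.aeval]
  rw [aeval_eisPoly, add_eq_zero_iff_eq_neg] at h0
  have h1 := congrArg S.ν h0
  rw [map_pow, S.ν.map_neg, hx] at h1
  set a := (minpoly K x).coeff
  obtain ⟨i₀, hi₀, he0, hmax⟩ := S.exists_max_term hn hx a
  rw [he0] at h1
  have ha0 : a i₀ ≠ 0 := fun e => S.ρ_pos.ne' (by rw [h1, e, map_zero, zero_mul, map_zero])
  obtain ⟨k, hk⟩ := S.ν_term hn hx (a i₀) i₀ ha0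
  rw [hk, ← S.t_pow hn, ← zpow_natCast (S.t n)] at h1
  have h2 := zpow_right_injective₀ S.t_pos (S.t_lt_one hn).ne h1
  have hi0 : i₀ = 0 := by
    have h3 : (n : ℤ) ∣ (i₀ : ℤ) := ⟨1 - k, by linarith⟩
    exact Nat.eq_zero_of_dvd_of_lt (Int.natCast_dvd_natCast.1 h3) hi₀
  subst hi0
  have hρ : S.ν (algebraMap K Ω (a 0) * x ^ 0) = S.ρ := by
    rw [hk, ← h2, zpow_natCast, S.t_pow hn]
  refine ⟨by simpa [μ] using hρ, fun i hi => S.μ_le_ρ_of_lt_one ?_⟩
  have h4 := hmax i hi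
  rw [hρ, map_mul, map_pow, S.ν_eq_t hn hx, ← S.t_pow hn] at h4
  rw [show n = (n - i) + i by omega, pow_add, show n - i + i = n by omega] at h4
  exact (le_of_mul_le_mul_right h4 (pow_pos S.t_pos i)).trans_lt
    (pow_lt_one₀ S.t_pos.le (S.t_lt_one hn) (by omega))

end Setting

end Fermat.Agent.SerreMass
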