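import Fermat.Agent.SerreMass.Extension

/-!
# The correspondence between polynomials modulo `ρ ^ N` and uniformizers

For `N` large compared to `D` the pairs of an Eisenstein polynomial modulo `ρ ^ N` and a root with
`|f'| ≥ t ^ D` correspond to the classes modulo `t ^ (n N - d)` of the uniformizers of the totally
ramified extensions with `d ≤ D`.
-/

set_option autoImplicit false

noncomputable section

open Polynomial IntermediateField Module

namespace Fermat.Agent.SerreMass.Setting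

variable {K Ω : Type*} [Field K] [Field Ω] [Algebra K Ω] (S : Setting K Ω) {n : ℕ}

/-- The element with the given digits. -/
def ksum {M : ℕ} (d : Fin M → K) : K := ∑ k, d k * S.ϖ ^ (k : ℕ)

theorem algebraMap_ksum {M : ℕ} (d : Fin M → K) :
    algebraMap K Ω (S.ksum d) = dsum (algebraMap K Ω S.ϖ) d := by
  simp [ksum, dsum]

/-- Digit tables of the Eisenstein polynomials of degree `n` modulo `ρ ^ (m + 2)`. -/
def coeffSet (n m : ℕ) : Finset (Fin n → Fin (m + 2) → K) :=
  Fintype.piFinset fun i : Fin n => if (i : ℕ) = 0 then S.digitsUnif m else S.digitsZero m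

theorem card_coeffSet (n m : ℕ) :
    (S.coeffSet (n + 1) m).card = (S.q - 1) * S.q ^ m * (S.q ^ (m + 1)) ^ n := by
  simp [coeffSet, Fintype.card_piFinset, Fin.prod_univ_succ, card_digitsUnif, card_digitsZero]

/-- The coefficients with the given digits. -/
def coeffOf {n m : ℕ} (c : Fin n → Fin (m + 2) → K) (i : ℕ) : K :=
  if h : i < n then S.ksum (c ⟨i, h⟩) else 0

theorem isEis_coeffOf {m : ℕ} (hn : n ≠ 0) {c : Fin n → Fin (m + 2) → K}
    (hc : c ∈ S.coeffSet n m) : S.IsEis n (S.coeffOf c) := by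
  rw [coeffSet, Fintype.mem_piFinset] at hc
  refine ⟨?_, fun i hi => ?_⟩
  · have h := hc ⟨0, Nat.pos_of_ne_zero hn⟩
    rw [if_pos rfl] at h
    rw [coeffOf, dif_pos (Nat.pos_of_ne_zero hn), μ, algebraMap_ksum]
    exact S.ν_dsum_digitsUnif S.ϖ_lt S.ϖ_pos h
  · rw [coeffOf, dif_pos hi, μ, algebraMap_ksum]
    refine S.ν_dsum_digitsZero S.ϖ_lt.le ?_
    have h := hc ⟨i, hi⟩
    split_ifs at h
    exacts [S.digitsUnif_subset m h, h]

variable (hn : n ≠ 0)

theorem exists_coeffOf {m : ℕ} {a : ℕ → K} (ha : S.IsEis n a) :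
    ∃ c ∈ S.coeffSet n m, ∀ i < n, S.μ (a i - S.coeffOf c i) ≤ S.ρ ^ (m + 2) := by
  classical
  have h : ∀ i : Fin n, ∃ d ∈ (if (i : ℕ) = 0 then S.digitsUnif m else S.digitsZero m),
      S.μ (a i - S.ksum d) ≤ S.ρ ^ (m + 2) := fun i => by
    have hmem : algebraMap K Ω (a i) ∈ (⊥ : IntermediateField K Ω) :=
      IntermediateField.algebraMap_mem _ _
    split_ifs with hi
    · obtain ⟨d, hd, hd'⟩ := S.level_bot.exists_digitsUnif m hmem (by rw [hi]; exact ha.1)
      exact ⟨d, hd, by rw [μ, map_sub, algebraMap_ksum]; exact hd'⟩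
    · obtain ⟨d, hd, hd'⟩ := S.level_bot.exists_digitsZero m hmem (ha.2 i i.2)
      exact ⟨d, hd, by rw [μ, map_sub, algebraMap_ksum]; exact hd'⟩
  choose c hc hc' using h
  refine ⟨c, Fintype.mem_piFinset.2 hc, fun i hi => ?_⟩
  rw [coeffOf, dif_pos hi]
  exact hc' ⟨i, hi⟩

theorem coeffOf_injective {m : ℕ} {c c' : Fin n → Fin (m + 2) → K} (hc : c ∈ S.coeffSet n m)
    (hc' : c' ∈ S.coeffSet n m)
    (h : ∀ i < n, S.μ (S.coeffOf c i - S.coeffOf c' i) ≤ S.ρ ^ (m + 2)) : c = c' := by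
  rw [coeffSet, Fintype.mem_piFinset] at hc hc'
  funext i
  have hR : ∀ d ∈ (if (i : ℕ) = 0 then S.digitsUnif m else S.digitsZero m), ∀ k, d k ∈ S.R := by
    intro d hd
    split_ifs at hd
    exacts [(S.mem_digitsUnif.1 hd).2.2, (S.mem_digitsZero.1 hd).2]
  refine S.level_bot.digits_unique (hR _ (hc i)) (hR _ (hc' i)) ?_
  have h1 := h i i.2
  rwa [coeffOf, coeffOf, dif_pos i.2, dif_pos i.2, μ, map_sub, algebraMap_ksum,
    algebraMap_ksum] at h1

theorem ν_eval_derivative_prod_mul (y : Ω) {r : ℝ} (hr : 0 ≤ r) :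
    ∀ s : Multiset Ω, (∀ a ∈ s, r ≤ S.ν (y - a)) →
      S.ν (eval y (derivative (s.map fun a => X - Polynomial.C a).prod)) * r ≤
        S.ν (eval y (s.map fun a => X - Polynomial.C a).prod) := by
  intro s
  induction s using Multiset.induction with
  | empty => intro _; simp
  | cons a s ih =>
    intro h
    have ih' := ih fun b hb => h b (Multiset.mem_cons_of_mem hb)
    rw [Multiset.map_cons, Multiset.prod_cons, derivative_mul, derivative_X_sub_C, one_mul,
      eval_add, eval_mul, eval_mul, eval_sub, eval_X, eval_C, map_mul]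
    refine le_trans (mul_le_mul_of_nonneg_right (S.nonarch _ _) hr) ?_
    rw [max_mul_of_nonneg _ _ hr, max_le_iff, map_mul]
    refine ⟨?_, ?_⟩
    · rw [mul_comm]
      exact mul_le_mul_of_nonneg_right (h a (Multiset.mem_cons_self a s)) (S.ν.nonneg _)
    · rw [mul_assoc]
      exact mul_le_mul_of_nonneg_left ih' (S.ν.nonneg _)

/-- The pairs of a digit table and a root with `|f'| ≥ t ^ D`. -/
def pairs (n m D : ℕ) : Finset (Σ _ : Fin n → Fin (m + 2) → K, Ω) :=
  open scoped Classical in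
  (S.coeffSet n m).sigma fun c => ((eisPoly n (S.coeffOf c)).aroots Ω).toFinset.filter fun y =>
    S.t n ^ D ≤ S.ν (aeval y (derivative (eisPoly n (S.coeffOf c))))

variable [IsAlgClosed Ω] [Algebra.IsAlgebraic K Ω]

omit [IsAlgClosed Ω] [Algebra.IsAlgebraic K Ω] in
include hn in
theorem isTotRam_adjoin {a : ℕ → K} (ha : S.IsEis n a) {y : Ω}
    (hy : aeval y (eisPoly n a) = 0) (hsep : aeval y (derivative (eisPoly n a)) ≠ 0) :
    IsSeparable K y ∧ S.IsTotRam n K⟮y⟯ ∧
      S.derivSize y = S.ν (aeval y (derivative (eisPoly n a))) := by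
  have hint : IsIntegral K y := ⟨_, eisPoly_monic n a, hy⟩
  have hm := S.minpoly_eq_eisPoly hn ha hy
  have hs : IsSeparable K y := (separable_iff_derivative_ne_zero (minpoly.irreducible hint)).2
    fun h => hsep (by rw [← hm, h, map_zero])
  refine ⟨hs, ⟨?_, (isSeparable_adjoin_simple_iff_isSeparable K Ω).2 hs,
    ⟨y, mem_adjoin_simple_self K y, S.ν_root hn ha hy⟩⟩, by rw [derivSize, hm]⟩
  rw [adjoin.finrank hint, hm, eisPoly_natDegree]

include hn in
theorem separation {y : Ω} (hy : IsSeparable K y) (hνy : S.ν y ^ n = S.ρ) {y' : Ω}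
    (h : IsConjRoot K y y') (hne : y' ≠ y) : S.derivSize y ≤ S.ν (y' - y) := by
  classical
  obtain ⟨s, hs, -, hprod⟩ := S.derivSize_eq_prod hy
  rw [hprod, ← Finset.mul_prod_erase s _ ((hs y').2 ⟨h, hne⟩), S.ν_sub_swap y]
  refine mul_le_of_le_one_right (S.ν.nonneg _) (Finset.prod_le_one (fun i _ => S.ν.nonneg _)
    fun i hi => ?_)
  refine (S.ν_sub_le _ _).trans (max_le ?_ ?_)
  · rw [S.ν_eq_t hn hνy]; exact (S.t_lt_one hn).le
  · rw [S.ν_conj ((hs i).1 (Finset.mem_of_mem_erase hi)).1, S.ν_eq_t hn hνy]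
    exact (S.t_lt_one hn).le

omit [Algebra.IsAlgebraic K Ω] in
theorem ν_aeval_minpoly {y z : Ω} (hy : IsSeparable K y)
    (h : ∀ y', IsConjRoot K y y' → y' ≠ y → S.ν (z - y) < S.ν (y' - y)) :
    S.ν (aeval z (minpoly K y)) = S.ν (z - y) * S.derivSize y := by
  classical
  obtain ⟨s, hs, -, hprod⟩ := S.derivSize_eq_prod hy
  set g := (minpoly K y).map (algebraMap K Ω) with hg
  have hnd : g.roots.Nodup := nodup_roots (Separable.map hy)
  have hys : y ∉ s := fun h' => ((hs y).1 h').2 rfl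
  have hroots : g.roots.toFinset = insert y s := by
    ext w
    rw [Multiset.mem_toFinset, Finset.mem_insert, hs,
      ← isConjRoot_iff_mem_minpoly_aroots hy.isIntegral]
    constructor
    · intro hw
      by_cases hwy : w = y
      exacts [Or.inl hwy, Or.inr ⟨hw, hwy⟩]
    · rintro (rfl | ⟨hw, -⟩)
      exacts [IsConjRoot.refl, hw]
  rw [← eval_map_algebraMap, ← hg,
    (IsAlgClosed.splits g).eq_prod_roots_of_monic ((minpoly.monic hy.isIntegral).map _),
    eval_multiset_prod, Multiset.map_map, map_multiset_prod, Multiset.map_map,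
    ← Multiset.dedup_eq_self.2 hnd, ← Multiset.toFinset_val, ← Finset.prod_eq_multiset_prod,
    hroots, Finset.prod_insert hys, hprod]
  simp only [Function.comp_apply, eval_sub, eval_X, eval_C]
  congr 1
  refine Finset.prod_congr rfl fun w hw => ?_
  obtain ⟨hw1, hw2⟩ := (hs w).1 hw
  rw [show z - w = (y - w) + (z - y) by ring]
  exact S.ν_add_eq_left (by rw [S.ν_sub_swap y]; exact h w hw1 hw2)

include hn in
/-- **Perturbation**: close Eisenstein polynomials have close roots generating the same field. -/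
theorem perturb {m D : ℕ} (hD : 2 * D + 2 ≤ n * (m + 2)) {a b : ℕ → K} (ha : S.IsEis n a)
    (hb : S.IsEis n b) (hab : ∀ i < n, S.μ (a i - b i) ≤ S.ρ ^ (m + 2)) {y : Ω} {d : ℕ}
    (hy : aeval y (eisPoly n a) = 0) (hd : d ≤ D)
    (hyd : S.ν (aeval y (derivative (eisPoly n a))) = S.t n ^ d) :
    ∃ z, aeval z (eisPoly n b) = 0 ∧ S.ν (y - z) ≤ S.t n ^ (n * (m + 2) - d) ∧ K⟮z⟯ = K⟮y⟯ ∧
      S.ν (aeval z (derivative (eisPoly n b))) = S.t n ^ d := by
  classical
  have hne : aeval y (derivative (eisPoly n a)) ≠ 0 := fun h => (pow_pos S.t_pos d).ne'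
    (by rw [← hyd, h, map_zero])
  obtain ⟨hsep, hT, hsize⟩ := S.isTotRam_adjoin hn ha hy hne
  have hνy := S.ν_root hn ha hy
  have hty : S.ν y ≤ 1 := by rw [S.ν_eq_t hn hνy]; exact (S.t_lt_one hn).le
  have hsmall : S.ν (aeval y (eisPoly n b)) ≤ S.t n ^ (n * (m + 2)) := by
    rw [pow_mul, S.t_pow hn]
    have e : aeval y (eisPoly n b) =
        -∑ i ∈ Finset.range n, algebraMap K Ω (a i - b i) * y ^ i := by
      rw [← sub_zero (aeval y (eisPoly n b)), ← hy, aeval_eisPoly, aeval_eisPoly]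
      simp only [map_sub, sub_mul, Finset.sum_sub_distrib]
      ring
    rw [e, S.ν.map_neg]
    refine S.ν_sum_le _ (pow_nonneg S.ρ_pos.le _) fun i hi => ?_
    rw [map_mul, map_pow]
    exact (mul_le_of_le_one_right (S.ν.nonneg _) (pow_le_one₀ (S.ν.nonneg y) hty)).trans
      (hab i (Finset.mem_range.1 hi))
  have hderiv : S.ν (aeval y (derivative (eisPoly n b))) = S.t n ^ d := by
    have e : aeval y (derivative (eisPoly n b)) = aeval y (derivative (eisPoly n a)) +
        -∑ i ∈ Finset.range n, algebraMap K Ω (a i - b i) * ((i : Ω) * y ^ (i - 1)) := by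
      simp only [eisPoly, derivative_C_mul_X_pow, map_add, map_sum,
        map_mul, map_pow, aeval_X, aeval_C, map_natCast, map_sub, sub_mul, Finset.sum_sub_distrib,
        mul_assoc]
      ring
    rw [e, S.ν_add_eq_left, hyd]
    rw [hyd, S.ν.map_neg]
    refine lt_of_le_of_lt (b := S.t n ^ (n * (m + 2))) ?_
      (pow_lt_pow_right_of_lt_one₀ S.t_pos (S.t_lt_one hn) (by omega))
    rw [pow_mul, S.t_pow hn]
    refine S.ν_sum_le _ (pow_nonneg S.ρ_pos.le _) fun i hi => ?_
    rw [map_mul]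
    refine (mul_le_of_le_one_right (S.ν.nonneg _) ?_).trans (hab i (Finset.mem_range.1 hi))
    rw [map_mul, map_pow]
    exact mul_le_one₀ (S.ν_natCast_le i) (pow_nonneg (S.ν.nonneg y) _)
      (pow_le_one₀ (S.ν.nonneg y) hty)
  set g := (eisPoly n b).map (algebraMap K Ω) with hg
  have hgm : g.Monic := (eisPoly_monic n b).map _
  have hnonempty : g.roots.toFinset.Nonempty := by
    obtain ⟨w, hw⟩ := IsAlgClosed.exists_root g (by
      rw [degree_eq_natDegree hgm.ne_zero, hg, natDegree_map, eisPoly_natDegree]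
      exact_mod_cast hn)
    exact ⟨w, Multiset.mem_toFinset.2 ((mem_roots hgm.ne_zero).2 hw)⟩
  obtain ⟨z, hz, hmin⟩ := g.roots.toFinset.exists_min_image (fun w => S.ν (y - w)) hnonempty
  have hzroot : aeval z (eisPoly n b) = 0 := by
    rw [← eval_map_algebraMap]; exact (mem_roots hgm.ne_zero).1 (Multiset.mem_toFinset.1 hz)
  have hclose : S.ν (y - z) ≤ S.t n ^ (n * (m + 2) - d) := by
    have h1 := S.ν_eval_derivative_prod_mul y (S.ν.nonneg (y - z)) g.roots
      fun w hw => hmin w (Multiset.mem_toFinset.2 hw)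
    rw [← (IsAlgClosed.splits g).eq_prod_roots_of_monic hgm, hg, derivative_map,
      eval_map_algebraMap, eval_map_algebraMap, hderiv] at h1
    refine le_of_mul_le_mul_left (h1.trans (hsmall.trans_eq ?_)) (pow_pos S.t_pos d)
    rw [← pow_add, Nat.add_sub_cancel' (by omega)]
  have hKy : ∀ y', IsConjRoot K y y' → y' ≠ y → S.ν (z - y) < S.ν (y' - y) := fun y' h h' => by
    rw [S.ν_sub_swap z]
    refine hclose.trans_lt (lt_of_lt_of_le ?_ (S.separation hn hsep hνy h h'))
    rw [hsize, hyd]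
    exact pow_lt_pow_right_of_lt_one₀ S.t_pos (S.t_lt_one hn) (by omega)
  have hmem := S.krasner hsep hKy
  have hzint : IsIntegral K z := ⟨_, eisPoly_monic n b, hzroot⟩
  have : FiniteDimensional K K⟮z⟯ := adjoin.finiteDimensional hzint
  have heq : K⟮y⟯ = K⟮z⟯ := IntermediateField.eq_of_le_of_finrank_le
    (adjoin_simple_le_iff.2 hmem) (by
      rw [adjoin.finrank hzint, S.minpoly_eq_eisPoly hn hb hzroot, eisPoly_natDegree, hT.1])
  refine ⟨z, hzroot, hclose, heq.symm, ?_⟩
  have hzy : z ∈ K⟮y⟯ := heq ▸ mem_adjoin_simple_self K z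
  rw [← S.minpoly_eq_eisPoly hn hb hzroot]
  change S.derivSize z = _
  rw [(S.derivSize_eq hn hzy (S.ν_root hn hb hzroot) hT).1,
    ← (S.derivSize_eq hn (mem_adjoin_simple_self K y) hνy hT).1, hsize, hyd]

open scoped Classical in
include hn in
theorem mem_pairs {m D : ℕ} {c : Fin n → Fin (m + 2) → K} {y : Ω} :
    (⟨c, y⟩ : Σ _ : Fin n → Fin (m + 2) → K, Ω) ∈ S.pairs n m D ↔ c ∈ S.coeffSet n m ∧
      aeval y (eisPoly n (S.coeffOf c)) = 0 ∧
      S.IsTotRam n K⟮y⟯ ∧ S.discExp n K⟮y⟯ ≤ D := by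
  rw [pairs, Finset.mem_sigma, Finset.mem_filter, Multiset.mem_toFinset,
    mem_aroots, and_congr_right_iff]
  intro hc
  have hE := S.isEis_coeffOf hn hc
  constructor
  · rintro ⟨⟨-, hy⟩, hd⟩
    have hne : aeval y (derivative (eisPoly n (S.coeffOf c))) ≠ 0 := fun h =>
      (pow_pos (S.t_pos (n := n)) D).not_ge (by simpa [h] using hd)
    obtain ⟨-, hT, hsize⟩ := S.isTotRam_adjoin hn hE hy hne
    refine ⟨hy, hT, ?_⟩
    rw [← hsize, (S.derivSize_eq hn (mem_adjoin_simple_self K y) (S.ν_root hn hE hy) hT).1,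
      pow_le_pow_iff_right_of_lt_one₀ S.t_pos (S.t_lt_one hn)] at hd
    exact hd
  · rintro ⟨hy, hT, hd⟩
    refine ⟨⟨(eisPoly_monic n _).ne_zero, hy⟩, ?_⟩
    rw [← S.minpoly_eq_eisPoly hn hE hy]
    change _ ≤ S.derivSize y
    rw [(S.derivSize_eq hn (mem_adjoin_simple_self K y) (S.ν_root hn hE hy) hT).1]
    exact pow_le_pow_of_le_one S.t_pos.le (S.t_lt_one hn).le hd

open scoped Classical in
include hn in
/-- The fibre over a field has as many elements as it has classes of uniformizers. -/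
theorem card_fibre {m D : ℕ} (hD : 2 * D + 2 ≤ n * (m + 2)) {L : IntermediateField K Ω}
    (hL : S.IsTotRam n L) (hLd : S.discExp n L ≤ D) :
    ((S.pairs n m D).filter fun p => K⟮p.2⟯ = L).card =
      (S.q - 1) * S.q ^ (n * (m + 2) - S.discExp n L - 2) := by
  obtain ⟨hrank, hsep, x, hxL, hx⟩ := id hL
  have hlev := S.level hn hrank hxL hx
  set d := S.discExp n L with hd
  set M := n * (m + 2) - d - 2 with hM
  have hM2 : M + 2 = n * (m + 2) - d := by omega
  have hνx := S.ν_eq_t hn hx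
  have key : ∀ p ∈ (S.pairs n m D).filter (fun p => K⟮p.2⟯ = L),
      ∃ w ∈ S.digitsUnif M, S.ν (p.2 - dsum x w) ≤ S.ν x ^ (M + 2) := by
    rintro ⟨c, y⟩ hp
    rw [Finset.mem_filter, S.mem_pairs hn] at hp
    obtain ⟨⟨hc, hy, -, -⟩, rfl⟩ := hp
    exact hlev.exists_digitsUnif M (mem_adjoin_simple_self K y)
      (by rw [hνx, S.ν_eq_t hn (S.ν_root hn (S.isEis_coeffOf hn hc) hy)])
  choose f hf hf' using key
  rw [← S.card_digitsUnif M]
  refine Finset.card_bij (fun p hp => f p hp) (fun p hp => hf p hp) ?_ ?_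
  · rintro ⟨c, y⟩ hp ⟨c', y'⟩ hp' he
    have h1 := hf' _ hp
    have h2 := hf' _ hp'
    rw [he] at h1
    simp only at h1 h2
    have hclose : S.ν (y - y') ≤ S.t n ^ (M + 2) := by
      rw [show y - y' = (y - dsum x (f ⟨c', y'⟩ hp')) - (y' - dsum x (f ⟨c', y'⟩ hp')) by ring]
      rw [← hνx]
      exact (S.ν_sub_le _ _).trans (max_le h1 h2)
    rw [Finset.mem_filter, S.mem_pairs hn] at hp hp'
    obtain ⟨⟨hc, hy, -, -⟩, hKy⟩ := hp
    obtain ⟨⟨hc', hy', hT', -⟩, hKy'⟩ := hp'
    simp only at hKy hKy'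
    have hνy' := S.ν_root hn (S.isEis_coeffOf hn hc') hy'
    have hνy := S.ν_root hn (S.isEis_coeffOf hn hc) hy
    have hsize' : S.derivSize y' = S.t n ^ d := by
      rw [hd, (S.derivSize_eq hn (hKy' ▸ mem_adjoin_simple_self K y') hνy' hL).1]
    have hsep' : IsSeparable K y' := (isSeparable_adjoin_simple_iff_isSeparable K Ω).1 hT'.2.1
    have hsepy : ∀ w, IsConjRoot K y' w → w ≠ y' → S.ν (y - y') < S.ν (w - y') := fun w hw hw' =>
      hclose.trans_lt (lt_of_lt_of_le (hsize' ▸ pow_lt_pow_right_of_lt_one₀ S.t_pos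
        (S.t_lt_one hn) (by omega)) (S.separation hn hsep' hνy' hw hw'))
    have hval := S.ν_aeval_minpoly hsep' hsepy
    rw [S.minpoly_eq_eisPoly hn (S.isEis_coeffOf hn hc') hy', hsize'] at hval
    have e : aeval y (eisPoly n (S.coeffOf c')) =
        ∑ i ∈ Finset.range n, algebraMap K Ω (S.coeffOf c' i - S.coeffOf c i) * y ^ i := by
      rw [← sub_zero (aeval y (eisPoly n (S.coeffOf c'))), ← hy, aeval_eisPoly, aeval_eisPoly]
      simp only [map_sub, sub_mul, Finset.sum_sub_distrib]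
      ring
    have hcc : c' = c := S.coeffOf_injective hc' hc fun i hi => S.μ_le_ρ_pow_of_lt (by
      have h3 := S.coeff_le hn hνy (fun j => S.coeffOf c' j - S.coeffOf c j) hi
      rw [← e, hval] at h3
      have h4 : S.μ (S.coeffOf c' i - S.coeffOf c i) * S.t n ^ i ≤ S.t n ^ (n * (m + 2)) := by
        refine h3.trans ((mul_le_mul_of_nonneg_right hclose (pow_nonneg S.t_pos.le d)).trans ?_)
        rw [← pow_add, hM2, Nat.sub_add_cancel (by omega)]
      rw [pow_mul, S.t_pow hn] at h4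
      calc S.μ (S.coeffOf c' i - S.coeffOf c i) * S.ρ
          = S.μ (S.coeffOf c' i - S.coeffOf c i) * S.t n ^ i * S.t n ^ (n - i) := by
            rw [mul_assoc, ← pow_add, Nat.add_sub_cancel' hi.le, S.t_pow hn]
        _ ≤ S.ρ ^ (m + 2) * S.t n ^ (n - i) :=
            mul_le_mul_of_nonneg_right h4 (pow_nonneg S.t_pos.le _)
        _ < S.ρ ^ (m + 2) := mul_lt_of_lt_one_right (pow_pos S.ρ_pos _)
            (pow_lt_one₀ S.t_pos.le (S.t_lt_one hn) (by omega)))
    subst hcc
    obtain rfl : y = y' := by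
      by_contra hne
      refine lt_irrefl _ (hsepy y ?_ hne)
      change minpoly K y' = minpoly K y
      rw [S.minpoly_eq_eisPoly hn (S.isEis_coeffOf hn hc) hy',
        S.minpoly_eq_eisPoly hn (S.isEis_coeffOf hn hc) hy]
    rfl
  · intro w hw
    set u := dsum x w with hu
    have huL : u ∈ L := dsum_mem hxL w
    have hνu : S.ν u ^ n = S.ρ := by
      rw [hu, S.ν_dsum_digitsUnif hlev.lt_one hlev.pos hw, hx]
    obtain ⟨hint, hdeg, hLu⟩ := S.adjoin_eq hn hrank huL hνu
    obtain ⟨hE, he⟩ := S.isEis_minpoly hn hint hdeg hνu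
    obtain ⟨c, hc, hc'⟩ := S.exists_coeffOf (m := m) hE
    have hu0 : aeval u (eisPoly n (minpoly K u).coeff) = 0 := by rw [he, minpoly.aeval]
    have hud : S.ν (aeval u (derivative (eisPoly n (minpoly K u).coeff))) = S.t n ^ d := by
      rw [he]
      exact (S.derivSize_eq hn huL hνu hL).1
    obtain ⟨y, hy, hclose, hKy, -⟩ :=
      S.perturb hn hD hE (S.isEis_coeffOf hn hc) hc' hu0 hLd hud
    have hp : (⟨c, y⟩ : Σ _ : Fin n → Fin (m + 2) → K, Ω) ∈
        (S.pairs n m D).filter fun p => K⟮p.2⟯ = L := by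
      rw [Finset.mem_filter, S.mem_pairs hn]
      refine ⟨⟨hc, hy, ?_, ?_⟩, ?_⟩
      · rw [hKy, ← hLu]; exact hL
      · rw [hKy, ← hLu]; exact hLd
      · change K⟮y⟯ = L
        rw [hKy, ← hLu]
    refine ⟨_, hp, hlev.digits_unique (S.mem_digitsUnif.1 (hf _ hp)).2.2
      (S.mem_digitsUnif.1 hw).2.2 ?_⟩
    have h1 := hf' _ hp
    rw [show dsum x (f _ hp) - u = (y - u) - (y - dsum x (f _ hp)) by ring]
    refine (S.ν_sub_le _ _).trans (max_le ?_ h1)
    rw [S.ν_sub_swap, hνx, hM2]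
    exact hclose

open scoped Classical in
include hn in
/-- The fields which occur are those with `d ≤ D`. -/
theorem mem_image_pairs {m D : ℕ} (hD : 2 * D + 2 ≤ n * (m + 2)) {L : IntermediateField K Ω} :
    L ∈ (S.pairs n m D).image (fun p => K⟮p.2⟯) ↔ S.IsTotRam n L ∧ S.discExp n L ≤ D := by
  constructor
  · intro h
    obtain ⟨⟨c, y⟩, hp, rfl⟩ := Finset.mem_image.1 h
    rw [S.mem_pairs hn] at hp
    exact hp.2.2
  · rintro ⟨hL, hd⟩
    have h := S.card_fibre hn hD hL hd
    have hpos : 0 < ((S.pairs n m D).filter fun p => K⟮p.2⟯ = L).card := by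
      rw [h]
      exact Nat.mul_pos (Nat.sub_pos_of_lt S.one_lt_q) (pow_pos (by linarith [S.one_lt_q]) _)
    obtain ⟨p, hp⟩ := Finset.card_pos.1 hpos
    rw [Finset.mem_filter] at hp
    exact Finset.mem_image.2 ⟨p, hp⟩

end Fermat.Agent.SerreMass.Setting
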