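import Fermat.Agent.SerreMass.Basic
import Mathlib.FieldTheory.Minpoly.IsConjRoot
import Mathlib.FieldTheory.SeparableDegree
import Mathlib.FieldTheory.IsAlgClosed.AlgebraicClosure
import Mathlib.RingTheory.Adjoin.PowerBasis
import Mathlib.RingTheory.Discriminant
import Mathlib.RingTheory.Norm.Transitivity

/-!
# Totally ramified extensions and the exponent of the discriminant

Krasner's lemma, and the equality `ρ ^ d = |f'(x)| ^ n` for the minimal polynomial `f` of a
uniformizer `x`, where `ρ ^ d` is the largest discriminant of `n` integral elements.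
-/

set_option autoImplicit false

noncomputable section

open Polynomial IntermediateField Module

namespace Fermat.Agent.SerreMass.Setting

variable {K Ω : Type*} [Field K] [Field Ω] [Algebra K Ω] (S : Setting K Ω) {n : ℕ}

/-- A separable totally ramified extension of degree `n`. -/
def IsTotRam (n : ℕ) (L : IntermediateField K Ω) : Prop :=
  finrank K L = n ∧ Algebra.IsSeparable K L ∧ ∃ x ∈ L, S.ν x ^ n = S.ρ

/-- The exponent of the discriminant: the least one of the discriminants of `n` integral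
elements. -/
def discExp (n : ℕ) (L : IntermediateField K Ω) : ℕ :=
  sInf {d | ∃ b : Fin n → L, (∀ i, S.ν (b i : Ω) ≤ 1) ∧ S.μ (Algebra.discr K b) = S.ρ ^ d}

variable (hn : n ≠ 0) {L : IntermediateField K Ω} (hL : finrank K L = n) {x : Ω} (hxL : x ∈ L)
  (hx : S.ν x ^ n = S.ρ)

include hn hL hxL hx in
theorem adjoin_eq : IsIntegral K x ∧ (minpoly K x).natDegree = n ∧ L = K⟮x⟯ := by
  have : FiniteDimensional K L := FiniteDimensional.of_finrank_pos (by omega)
  have hint : IsIntegral K x := (isIntegral_iff (x := (⟨x, hxL⟩ : L))).1 (IsIntegral.of_finite K _)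
  have hle : n ≤ (minpoly K x).natDegree := not_lt.1 fun hlt =>
    minpoly.ne_zero hint (S.coeff_eq_zero hn hx hlt (minpoly.aeval K x))
  have hsub : K⟮x⟯ ≤ L := adjoin_simple_le_iff.2 hxL
  have he : K⟮x⟯ = L := IntermediateField.eq_of_le_of_finrank_le hsub
    (by rw [hL, adjoin.finrank hint]; exact hle)
  refine ⟨hint, ?_, he.symm⟩
  rw [← adjoin.finrank hint, he, hL]

include hn hL hxL hx in
theorem exists_coeffs {y : Ω} (hy : y ∈ L) :
    ∃ a : ℕ → K, y = ∑ i ∈ Finset.range n, algebraMap K Ω (a i) * x ^ i := by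
  obtain ⟨hint, hd, hLx⟩ := S.adjoin_eq hn hL hxL hx
  rw [hLx] at hy
  rw [← IntermediateField.mem_toSubalgebra,
    adjoin_simple_toSubalgebra_of_isAlgebraic hint.isAlgebraic,
    Algebra.adjoin_singleton_eq_range_aeval] at hy
  obtain ⟨P, hP⟩ := hy
  refine ⟨(P %ₘ minpoly K x).coeff, ?_⟩
  have hlt : (P %ₘ minpoly K x).natDegree < n := hd ▸ natDegree_modByMonic_lt _ (minpoly.monic hint)
    (minpoly.ne_one K x)
  rw [← hP]
  change aeval x P = _
  conv_lhs => rw [← modByMonic_add_div P (minpoly K x), map_add, map_mul, minpoly.aeval,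
    zero_mul, add_zero, aeval_eq_sum_range' hlt]
  simp only [Algebra.smul_def]

include hn hL hxL hx in
theorem level : S.Level L x where
  mem := hxL
  pos := by rw [S.ν_eq_t hn hx]; exact S.t_pos
  lt_one := by rw [S.ν_eq_t hn hx]; exact S.t_lt_one hn
  norms y hy hy0 := by
    obtain ⟨a, rfl⟩ := S.exists_coeffs hn hL hxL hx hy
    obtain ⟨i, -, he, -⟩ := S.exists_max_term hn hx a
    have hai : a i ≠ 0 := fun e => hy0 (S.ν.eq_zero.1 (by rw [he, e, map_zero, zero_mul, map_zero]))
    obtain ⟨k, hk⟩ := S.ν_term hn hx (a i) i hai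
    exact ⟨k * n + i, by rw [he, hk, S.ν_eq_t hn hx]⟩
  rep y hy h := by
    obtain ⟨a, rfl⟩ := S.exists_coeffs hn hL hxL hx hy
    have hterm : ∀ i < n, S.μ (a i) ≤ 1 := fun i hi => by
      have h1 := (S.coeff_le hn hx a hi).trans h
      have h2 : S.μ (a i) * S.ρ < 1 := by
        rw [← S.t_pow hn, show n = i + (n - i) by omega, pow_add, ← mul_assoc,
          show i + (n - i) = n by omega]
        exact (mul_le_of_le_one_left (pow_nonneg S.t_pos.le _) h1).trans_lt
          (pow_lt_one₀ S.t_pos.le (S.t_lt_one hn) (by omega))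
      simpa using S.μ_le_ρ_pow_of_lt (N := 0) (by simpa using h2)
    obtain ⟨r, ⟨hr, hr'⟩, -⟩ := S.rep (a 0) (hterm 0 (Nat.pos_of_ne_zero hn))
    refine ⟨r, hr, ?_⟩
    rw [← Finset.add_sum_erase _ _ (Finset.mem_range.2 (Nat.pos_of_ne_zero hn)), pow_zero, mul_one,
      add_sub_right_comm, ← map_sub]
    refine (S.nonarch _ _).trans_lt (max_lt hr' (S.ν_sum_lt _ zero_lt_one fun i hi => ?_))
    rw [Finset.mem_erase, Finset.mem_range] at hi
    rw [map_mul, map_pow, S.ν_eq_t hn hx]
    exact mul_lt_one_of_nonneg_of_lt_one_right (hterm i hi.2) (pow_nonneg S.t_pos.le _)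
      (pow_lt_one₀ S.t_pos.le (S.t_lt_one hn) hi.1)

include hn hL hxL hx in
theorem coeffs_integral (a : ℕ → K)
    (h : S.ν (∑ j ∈ Finset.range n, algebraMap K Ω (a j) * x ^ j) ≤ 1) {i : ℕ} (hi : i < n) :
    S.μ (a i) ≤ 1 := by
  have := S.adjoin_eq hn hL hxL hx
  have h1 := (S.coeff_le hn hx a hi).trans h
  have h2 : S.μ (a i) * S.ρ < 1 := by
    rw [← S.t_pow hn, show n = i + (n - i) by omega, pow_add, ← mul_assoc,
      show i + (n - i) = n by omega]
    exact (mul_le_of_le_one_left (pow_nonneg S.t_pos.le _) h1).trans_lt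
      (pow_lt_one₀ S.t_pos.le (S.t_lt_one hn) (by omega))
  simpa using S.μ_le_ρ_pow_of_lt (N := 0) (by simpa using h2)

variable [IsAlgClosed Ω] [Algebra.IsAlgebraic K Ω]

omit S hn hL hxL hx in
theorem normal_Ω : Normal K Ω :=
  haveI : IsAlgClosure K Ω := ⟨inferInstance, inferInstance⟩
  IsAlgClosure.normal K Ω

theorem ν_algHom (L : IntermediateField K Ω) (σ : L →ₐ[K] Ω) (y : L) : S.ν (σ y) = S.ν (y : Ω) := by
  have := normal_Ω (K := K) (Ω := Ω)
  have h : IsConjRoot K (y : Ω) (σ y) := by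
    change minpoly K (y : Ω) = minpoly K (σ y)
    rw [minpoly.algHom_eq σ σ.injective]
    exact minpoly.algHom_eq L.val L.val.injective y
  obtain ⟨τ, hτ⟩ := isConjRoot_iff_exists_algEquiv.1 h
  rw [← hτ]
  exact (S.invariant τ _).symm

theorem ν_conj {y y' : Ω} (h : IsConjRoot K y y') : S.ν y' = S.ν y := by
  have := normal_Ω (K := K) (Ω := Ω)
  obtain ⟨τ, hτ⟩ := isConjRoot_iff_exists_algEquiv.1 h
  rw [← hτ]
  exact (S.invariant τ _).symm

/-- **Krasner's lemma**. -/
theorem krasner {y z : Ω} (hy : IsSeparable K y)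
    (h : ∀ y', IsConjRoot K y y' → y' ≠ y → S.ν (z - y) < S.ν (y' - y)) : y ∈ K⟮z⟯ := by
  have := normal_Ω (K := K) (Ω := Ω)
  by_contra hne
  have hbot : y ∉ (⊥ : Subalgebra K⟮z⟯ Ω) := fun hm => by
    obtain ⟨w, rfl⟩ := Algebra.mem_bot.1 hm
    exact hne w.2
  obtain ⟨y', hy', hc⟩ := (notMem_iff_exists_ne_and_isConjRoot (hy.tower_top K⟮z⟯)
    (IsAlgClosed.splits _)).1 hbot
  have : Normal K⟮z⟯ Ω := Normal.tower_top_of_normal K _ Ω
  obtain ⟨σ, hσ⟩ := isConjRoot_iff_exists_algEquiv.1 hc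
  have hσz : σ z = z := σ.commutes ⟨z, mem_adjoin_simple_self K z⟩
  have hinv : ∀ w, S.ν (σ w) = S.ν w := fun w => S.invariant (σ.restrictScalars K) w
  have hlt := h y' (IsConjRoot.of_isScalarTower hy.isIntegral hc) (Ne.symm hy')
  have : S.ν (y' - y) ≤ S.ν (z - y) := by
    rw [show y' - y = (y' - z) + (z - y) by ring]
    refine (S.nonarch _ _).trans (max_le ?_ le_rfl)
    have e : S.ν (y' - z) = S.ν (y - z) := by
      have h1 := hinv (y - z)
      have h2 := hinv (y' - z)
      rw [map_sub, hσz] at h1 h2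
      rw [← h2, hσ]
    rw [e, S.ν_sub_swap]
  exact absurd this (not_le.2 hlt)

/-- `|f'(x)|` for the minimal polynomial `f`. -/
def derivSize (y : Ω) : ℝ := S.ν (aeval y (derivative (minpoly K y)))

omit [Algebra.IsAlgebraic K Ω] in
theorem derivSize_eq_prod {y : Ω} (hy : IsSeparable K y) :
    ∃ s : Finset Ω, (∀ z, z ∈ s ↔ IsConjRoot K y z ∧ z ≠ y) ∧
      s.card + 1 = (minpoly K y).natDegree ∧ S.derivSize y = ∏ z ∈ s, S.ν (y - z) := by
  classical
  set g := (minpoly K y).map (algebraMap K Ω) with hg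
  have hnd : g.roots.Nodup := nodup_roots (Separable.map hy)
  have hmem : y ∈ g.roots := by
    rw [mem_roots ((minpoly.monic hy.isIntegral).map _).ne_zero, IsRoot, eval_map_algebraMap,
      minpoly.aeval]
  have hsp : g.Splits := IsAlgClosed.splits _
  refine ⟨g.roots.toFinset.erase y, fun z => ?_, ?_, ?_⟩
  · rw [Finset.mem_erase, Multiset.mem_toFinset,
      isConjRoot_iff_mem_minpoly_aroots hy.isIntegral]
    exact and_comm
  · rw [Finset.card_erase_of_mem (Multiset.mem_toFinset.2 hmem),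
      Multiset.toFinset_card_of_nodup hnd]
    have hcard : g.roots.card = (minpoly K y).natDegree := by
      rw [← hsp.natDegree_eq_card_roots, hg, natDegree_map]
    have := minpoly.natDegree_pos hy.isIntegral
    omega
  · have h := hsp.eval_root_derivative ((minpoly.monic hy.isIntegral).map _) hmem
    rw [derivative_map, eval_map_algebraMap] at h
    rw [derivSize, h, map_multiset_prod, Multiset.map_map, Finset.prod_eq_multiset_prod]
    congr 1
    rw [Finset.erase_val, Multiset.toFinset_val, Multiset.dedup_eq_self.2 hnd]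
    rfl

include hn hL hxL hx in
theorem μ_discr_powers [Algebra.IsSeparable K L] :
    S.μ (Algebra.discr K fun i : Fin n => (⟨x, hxL⟩ : L) ^ (i : ℕ)) = S.derivSize x ^ n := by
  obtain ⟨hint, hd, hLx⟩ := S.adjoin_eq hn hL hxL hx
  have : FiniteDimensional K L := FiniteDimensional.of_finrank_pos (by omega)
  set g : L := ⟨x, hxL⟩ with hg
  have hgen : Algebra.adjoin K {g} = ⊤ := by
    refine eq_top_iff.2 fun y _ => ?_
    obtain ⟨a, ha⟩ := S.exists_coeffs hn hL hxL hx y.2
    have hy : y = ∑ i ∈ Finset.range n, a i • g ^ i := Subtype.ext (by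
      rw [ha, AddSubmonoidClass.coe_finsetSum]
      exact Finset.sum_congr rfl fun i _ => by
        rw [IntermediateField.coe_smul, IntermediateField.coe_pow, hg, Algebra.smul_def])
    rw [hy]
    exact sum_mem fun i _ => Subalgebra.smul_mem _
      (pow_mem (Algebra.self_mem_adjoin_singleton K g) _) _
  set pb := PowerBasis.ofAdjoinEqTop (IsIntegral.of_finite K g) hgen with hpb
  have hdim : pb.dim = n := by rw [← pb.finrank, hL]
  have hpg : pb.gen = g := PowerBasis.ofAdjoinEqTop_gen _ _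
  have hb : (fun i : Fin n => g ^ (i : ℕ)) = pb.basis ∘ (Fin.castOrderIso hdim).toEquiv.symm :=
    funext fun i => by simp [pb.coe_basis, hpg]
  rw [hb, Algebra.discr_reindex, Algebra.discr_powerBasis_eq_norm, μ, map_mul, map_mul, map_pow,
    map_pow, map_neg, map_one, S.ν.map_neg, map_one, one_pow, one_mul,
    Algebra.norm_eq_prod_embeddings K Ω, map_prod,
    Finset.prod_congr rfl fun σ _ => S.ν_algHom L σ _,
    Finset.prod_const, Finset.card_univ, AlgHom.card, hL, hpg, derivSize]
  congr 1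
  have hmin : minpoly K g = minpoly K x := (minpoly.algHom_eq L.val L.val.injective g).symm
  rw [hmin, show (((aeval g) (derivative (minpoly K x)) : L) : Ω) =
    L.val (aeval g (derivative (minpoly K x))) from rfl, ← aeval_algHom_apply]
  rfl

include hn hL hxL hx in
/-- The discriminant of `n` integral elements is at most that of the powers of `x`. -/
theorem μ_discr_le [Algebra.IsSeparable K L] (b : Fin n → L) (hb : ∀ i, S.ν (b i : Ω) ≤ 1) :
    S.μ (Algebra.discr K b) ≤ S.derivSize x ^ n := by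
  classical
  choose a ha using fun j => S.exists_coeffs hn hL hxL hx (b j).2
  set P : Matrix (Fin n) (Fin n) K := Matrix.of fun i j => a j i with hP
  set v : Fin n → L := fun i => (⟨x, hxL⟩ : L) ^ (i : ℕ) with hv
  have hbv : b = Matrix.vecMul v (P.map (algebraMap K L)) := by
    funext j
    refine Subtype.ext ?_
    rw [Matrix.vecMul, dotProduct, IntermediateField.coe_sum, ha j, Finset.sum_range]
    refine Finset.sum_congr rfl fun i _ => ?_
    rw [IntermediateField.coe_mul, hv, hP, Matrix.map_apply, Matrix.of_apply,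
      IntermediateField.coe_pow, mul_comm]
    rfl
  rw [hbv, Algebra.discr_of_matrix_vecMul, μ, map_mul, map_mul,
    ← S.μ_discr_powers hn hL hxL hx]
  refine mul_le_of_le_one_left (S.ν.nonneg _) ?_
  rw [map_pow, map_pow]
  refine pow_le_one₀ (S.ν.nonneg _) ?_
  rw [Matrix.det_apply, map_sum]
  refine S.ν_sum_le _ zero_le_one fun σ _ => ?_
  have hent : ∀ i j, S.μ (P i j) ≤ 1 := fun i j =>
    S.coeffs_integral hn hL hxL hx (a j) (ha j ▸ hb j) i.2
  have hprod : S.ν (algebraMap K Ω (∏ i, P (σ i) i)) ≤ 1 := by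
    rw [map_prod, map_prod]
    exact Finset.prod_le_one (fun i _ => S.ν.nonneg _) fun i _ => hent _ _
  rcases Int.units_eq_one_or (Equiv.Perm.sign σ) with h | h <;> rw [h]
  · rwa [one_smul]
  · rwa [Units.neg_smul, one_smul, map_neg, S.ν.map_neg]

include hn hxL hx in
theorem derivSize_eq (hT : S.IsTotRam n L) :
    S.derivSize x = S.t n ^ S.discExp n L ∧ n - 1 ≤ S.discExp n L := by
  obtain ⟨hL, hsep, -⟩ := hT
  obtain ⟨hint, hd, hLx⟩ := S.adjoin_eq hn hL hxL hx
  obtain ⟨hE, he⟩ := S.isEis_minpoly hn hint hd hx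
  set a := (minpoly K x).coeff with ha
  have hmem : aeval x (derivative (minpoly K x)) ∈ L := by
    rw [show x = L.val ⟨x, hxL⟩ from rfl, aeval_algHom_apply]
    exact SetLike.coe_mem _
  have hbound : S.derivSize x ≤ S.t n ^ (n - 1) := by
    rw [derivSize, ← he, eisPoly, derivative_add, map_add, derivative_X_pow, derivative_sum,
      map_sum]
    refine (S.nonarch _ _).trans (max_le ?_ (S.ν_sum_le _ (pow_nonneg S.t_pos.le _) fun i hi => ?_))
    · rw [map_mul, map_pow, aeval_X, aeval_C, map_natCast, map_mul, map_pow, S.ν_eq_t hn hx]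
      exact mul_le_of_le_one_left (pow_nonneg S.t_pos.le _) (S.ν_natCast_le n)
    · rw [derivative_C_mul_X_pow, map_mul, map_pow, aeval_X, aeval_C, map_mul (algebraMap K Ω),
        map_natCast, map_mul, map_mul, map_pow, S.ν_eq_t hn hx]
      calc S.ν (algebraMap K Ω (a i)) * S.ν (i : Ω) * S.t n ^ (i - 1) ≤ S.ρ * 1 * 1 := by
            refine mul_le_mul (mul_le_mul (hE.2 i (Finset.mem_range.1 hi)) (S.ν_natCast_le i)
              (S.ν.nonneg _) S.ρ_pos.le) (pow_le_one₀ S.t_pos.le (S.t_lt_one hn).le)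
              (pow_nonneg S.t_pos.le _) (by simpa using S.ρ_pos.le)
        _ = S.t n ^ n := by rw [mul_one, mul_one, S.t_pow hn]
        _ ≤ S.t n ^ (n - 1) :=
          pow_le_pow_of_le_one S.t_pos.le (S.t_lt_one hn).le (Nat.sub_le n 1)
  have hne : aeval x (derivative (minpoly K x)) ≠ 0 := by
    have hs : (minpoly K x).Separable := by
      have h := Algebra.IsSeparable.isSeparable K (⟨x, hxL⟩ : L)
      rwa [IsSeparable, ← minpoly.algHom_eq L.val L.val.injective] at h
    exact hs.aeval_derivative_ne_zero (minpoly.aeval K x)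
  obtain ⟨k, hk⟩ := (S.level hn hL hxL hx).norms _ hmem hne
  rw [S.ν_eq_t hn hx] at hk
  have hkn : ((n - 1 : ℕ) : ℤ) ≤ k := by
    rw [derivSize, hk, ← zpow_natCast,
      zpow_le_zpow_iff_right_of_lt_one₀ S.t_pos (S.t_lt_one hn)] at hbound
    exact hbound
  obtain ⟨k', rfl⟩ := Int.eq_ofNat_of_zero_le (le_trans (Int.natCast_nonneg _) hkn)
  rw [zpow_natCast] at hk
  suffices hdk : S.discExp n L = k' by
    rw [hdk]; exact ⟨hk, by exact_mod_cast hkn⟩
  have hpow : S.derivSize x ^ n = S.ρ ^ k' := by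
    rw [derivSize, hk, ← pow_mul, mul_comm, pow_mul, S.t_pow hn]
  refine le_antisymm (Nat.sInf_le ⟨fun i => (⟨x, hxL⟩ : L) ^ (i : ℕ), fun i => ?_,
    (S.μ_discr_powers hn hL hxL hx).trans hpow⟩) (le_csInf ⟨k', fun i => (⟨x, hxL⟩ : L) ^ (i : ℕ),
      fun i => ?_, (S.μ_discr_powers hn hL hxL hx).trans hpow⟩ fun d hd => ?_)
  · simpa [S.ν_eq_t hn hx] using pow_le_one₀ S.t_pos.le (S.t_lt_one hn).le (n := (i : ℕ))
  · simpa [S.ν_eq_t hn hx] using pow_le_one₀ S.t_pos.le (S.t_lt_one hn).le (n := (i : ℕ))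
  · obtain ⟨b, hb, hb'⟩ := hd
    have h := S.μ_discr_le hn hL hxL hx b hb
    rwa [hb', hpow, pow_le_pow_iff_right_of_lt_one₀ S.ρ_pos S.ρ_lt] at h

end Fermat.Agent.SerreMass.Setting
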