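import Fermat.Agent.SerreMass.Count
import Mathlib.Topology.Algebra.InfiniteSum.Order
import Mathlib.Topology.Order.MonotoneConvergence

/-!
# Serre's mass formula

`∑ q ^ (-(d - (n - 1))) = n` over the totally ramified separable extensions of degree `n`.
-/

set_option autoImplicit false

noncomputable section

open Polynomial IntermediateField Module

namespace Fermat.Agent.SerreMass.Setting

variable {K Ω : Type*} [Field K] [Field Ω] [Algebra K Ω] (S : Setting K Ω) {n : ℕ}

variable {S} in
theorem Level.digits_eq_zero {F : IntermediateField K Ω} {z : Ω} (hL : S.Level F z) :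
    ∀ {M : ℕ} (k : ℕ) (d : Fin M → K), (∀ i, d i ∈ S.R) → S.ν (dsum z d) ≤ S.ν z ^ k →
      ∀ i : Fin M, (i : ℕ) < k → d i = 0
  | 0, _, _, _, _, i, _ => i.elim0
  | _ + 1, 0, _, _, _, _, hi => absurd hi (Nat.not_lt_zero _)
  | M + 1, k + 1, d, hd, h, i, hi => by
    have ht := S.ν_dsum_le hL.lt_one.le (d := Fin.tail d) fun j => hd j.succ
    rw [← Fin.cons_self_tail d, dsum_cons] at h
    have h0 : d 0 = 0 := by
      refine S.eq_of_rep (y := algebraMap K Ω (d 0)) (hd 0) S.zero_mem (by simp) ?_
      rw [map_zero, sub_zero, show algebraMap K Ω (d 0) =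
        (algebraMap K Ω (d 0) + z * dsum z (Fin.tail d)) - z * dsum z (Fin.tail d) by ring]
      refine (S.ν_sub_le _ _).trans_lt (max_lt
        (h.trans_lt (pow_lt_one₀ hL.pos.le hL.lt_one k.succ_ne_zero)) ?_)
      rw [map_mul]
      exact mul_lt_one_of_nonneg_of_lt_one_left hL.pos.le hL.lt_one ht
    refine Fin.cases (fun _ => h0) (fun j hj => ?_) i hi
    rw [h0, map_zero, zero_add, map_mul, pow_succ'] at h
    exact digits_eq_zero hL k (Fin.tail d) (fun j => hd j.succ)
      (le_of_mul_le_mul_left h hL.pos) j (by simpa using hj)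

/-- The weight of an extension. -/
def weight (n : ℕ) (L : IntermediateField K Ω) : ℝ :=
  ((S.q : ℝ)⁻¹) ^ (S.discExp n L - (n - 1))

theorem weight_nonneg (n : ℕ) (L : IntermediateField K Ω) : 0 ≤ S.weight n L :=
  pow_nonneg (inv_nonneg.2 (Nat.cast_nonneg _)) _

variable [IsAlgClosed Ω] [Algebra.IsAlgebraic K Ω]

open scoped Classical in
/-- The count, over the extensions with bounded discriminant. -/
theorem card_pairs_eq (hn : n ≠ 0) {m D : ℕ} (hD : 2 * D + 2 ≤ n * (m + 2)) :
    ((S.pairs n m D).card : ℝ) = ((S.coeffSet n m).card : ℝ) *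
      ∑ L ∈ (S.pairs n m D).image (fun p => K⟮p.2⟯), S.weight n L := by
  obtain ⟨j, rfl⟩ := Nat.exists_eq_add_one.2 (Nat.pos_of_ne_zero hn)
  rw [Finset.card_eq_sum_card_image (fun p => K⟮p.2⟯) (S.pairs (j + 1) m D), Nat.cast_sum,
    Finset.mul_sum]
  refine Finset.sum_congr rfl fun L hL => ?_
  obtain ⟨hT, hd⟩ := (S.mem_image_pairs hn hD).1 hL
  obtain ⟨hrank, -, x, hxL, hx⟩ := id hT
  have hge := (S.derivSize_eq hn hxL hx hT).2
  rw [Nat.add_sub_cancel] at hge
  rw [S.card_fibre hn hD hT hd, S.card_coeffSet, weight, Nat.add_sub_cancel, inv_pow,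
    ← div_eq_mul_inv, eq_div_iff (pow_ne_zero _ (Nat.cast_ne_zero.2 (by
      have := S.one_lt_q; omega)))]
  push_cast
  rw [← pow_mul, mul_assoc, mul_assoc, ← pow_add, ← pow_add]
  congr 2
  have h1 : (j + 1) * (m + 2) = j * m + 2 * j + (m + 2) := by ring
  have h2 : (m + 1) * j = j * m + j := by ring
  rw [h1] at hD ⊢
  rw [h2]
  omega

open scoped Classical in
omit [IsAlgClosed Ω] [Algebra.IsAlgebraic K Ω] in
theorem card_pairs_le (m D : ℕ) : (S.pairs n m D).card ≤ n * (S.coeffSet n m).card := by
  rw [pairs, Finset.card_sigma, mul_comm]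
  refine Finset.sum_le_card_nsmul _ _ _ fun c _ => ?_
  refine (Finset.card_filter_le _ _).trans ((Multiset.toFinset_card_le _).trans ?_)
  exact (card_roots' _).trans (natDegree_map_le.trans (eisPoly_natDegree n _).le)

open scoped Classical in
omit [IsAlgClosed Ω] [Algebra.IsAlgebraic K Ω] in
/-- The digit tables whose linear coefficient is small are few. -/
theorem card_bad_le (j k r m : ℕ) (hm : m + 2 = k + r) :
    ((S.coeffSet (j + 2) m).filter fun c => S.μ (S.coeffOf c 1) < S.ρ ^ k).card * S.q ^ k ≤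
      S.q * (S.coeffSet (j + 2) m).card := by
  have hsub : ((S.coeffSet (j + 2) m).filter fun c => S.μ (S.coeffOf c 1) < S.ρ ^ k) ⊆
      Fintype.piFinset (Fin.cons (S.digitsUnif m) (Fin.cons
        (Fintype.piFinset fun i : Fin (m + 2) => if (i : ℕ) < k then {0} else S.R)
        fun _ : Fin j => S.digitsZero m)) := by
    intro c hc
    rw [Finset.mem_filter, coeffSet, Fintype.mem_piFinset] at hc
    obtain ⟨hc, hlt⟩ := hc
    have h1 : c 1 ∈ S.digitsZero m := by
      have h := hc 1
      rwa [if_neg (by simp)] at h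
    rw [coeffOf, dif_pos (show 1 < j + 2 by omega), μ, algebraMap_ksum] at hlt
    have hz := S.level_bot.digits_eq_zero k (c 1) (S.mem_digitsZero.1 h1).2
      hlt.le
    rw [Fintype.mem_piFinset, Fin.forall_fin_succ, Fin.cons_zero, Fin.forall_fin_succ]
    refine ⟨by simpa using hc 0, ?_, fun i => ?_⟩
    · rw [Fin.cons_succ, Fin.cons_zero, Fintype.mem_piFinset, Fin.succ_zero_eq_one]
      intro i
      split_ifs with hi
      exacts [Finset.mem_singleton.2 (hz i hi), (S.mem_digitsZero.1 h1).2 i]
    · simpa using hc i.succ.succ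
  have hcard : (Fintype.piFinset fun i : Fin (m + 2) =>
      if (i : ℕ) < k then ({0} : Finset K) else S.R).card = S.q ^ r := by
    rw [Fintype.card_piFinset]
    rw [Finset.prod_congr rfl fun i _ => apply_ite Finset.card _ _ _,
      ← Finset.prod_range (fun i => if i < k then ({0} : Finset K).card else S.R.card), hm,
      Finset.prod_range_add, Finset.prod_eq_one fun i hi => by
        rw [if_pos (Finset.mem_range.1 hi), Finset.card_singleton], one_mul,
      Finset.prod_congr rfl fun i _ => if_neg (by omega : ¬k + i < k), Finset.prod_const,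
      Finset.card_range]
    rfl
  refine le_trans (Nat.mul_le_mul_right _ (Finset.card_le_card hsub)) (le_of_eq ?_)
  rw [Fintype.card_piFinset, Fin.prod_univ_succ, Fin.prod_univ_succ, S.card_coeffSet]
  simp only [Fin.cons_zero, Fin.cons_succ, hcard, card_digitsUnif, card_digitsZero,
    Finset.prod_const, Finset.card_univ, Fintype.card_fin]
  have : S.q ^ (m + 1) * S.q = S.q ^ r * S.q ^ k := by rw [← pow_succ, ← pow_add, hm, add_comm]
  linear_combination ((S.q - 1) * S.q ^ m * (S.q ^ (m + 1)) ^ j) * this.symm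

open scoped Classical in
omit [Algebra.IsAlgebraic K Ω] in
/-- A table with large linear coefficient has `n` good roots. -/
theorem card_good_roots (hn : n ≠ 0) {m D : ℕ} {c : Fin n → Fin (m + 2) → K}
    (hc : c ∈ S.coeffSet n m) (h : n = 1 ∨ S.t n ^ D ≤ S.μ (S.coeffOf c 1)) :
    (((eisPoly n (S.coeffOf c)).aroots Ω).toFinset.filter fun y =>
      S.t n ^ D ≤ S.ν (aeval y (derivative (eisPoly n (S.coeffOf c))))).card = n := by
  set f := eisPoly n (S.coeffOf c) with hf
  have hE := S.isEis_coeffOf hn hc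
  have key : ∀ y : Ω, aeval y f = 0 → S.t n ^ D ≤ S.ν (aeval y (derivative f)) := by
    intro y hy
    rcases h with rfl | h
    · rw [show derivative f = 1 by
        rw [hf, eisPoly, Finset.sum_range_one, pow_zero, mul_one, pow_one, derivative_add,
          derivative_X, derivative_C, add_zero], map_one, map_one]
      exact pow_le_one₀ S.t_pos.le (S.t_lt_one hn).le
    rcases eq_or_ne n 1 with rfl | hn1
    · rw [show derivative f = 1 by
        rw [hf, eisPoly, Finset.sum_range_one, pow_zero, mul_one, pow_one, derivative_add,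
          derivative_X, derivative_C, add_zero], map_one, map_one]
      exact pow_le_one₀ S.t_pos.le (S.t_lt_one hn).le
    have hdeg : (derivative f).natDegree < n :=
      (natDegree_derivative_le _).trans_lt (by rw [hf, eisPoly_natDegree]; omega)
    have hle := S.coeff_le hn (S.ν_root hn hE hy) (derivative f).coeff
      (Nat.pos_of_ne_zero hn)
    simp only [← Algebra.smul_def] at hle
    rw [← aeval_eq_sum_range' hdeg, coeff_derivative, hf, coeff_eisPoly _ (by omega), pow_zero,
      mul_one, zero_add, Nat.cast_zero, zero_add, mul_one] at hle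
    exact h.trans hle
  rw [Finset.filter_true_of_mem fun y hy => key y ((mem_aroots.1 (Multiset.mem_toFinset.1 hy)).2)]
  have hsep : f.Separable := by
    obtain ⟨y, hy⟩ := IsAlgClosed.exists_aeval_eq_zero Ω f (by
      rw [degree_eq_natDegree (eisPoly_monic n _).ne_zero, eisPoly_natDegree]
      exact_mod_cast hn)
    have hne : aeval y (derivative f) ≠ 0 := fun e =>
      (pow_pos (S.t_pos (n := n)) D).not_ge (by simpa [e] using key y hy)
    have hs := (S.isTotRam_adjoin hn hE hy hne).1
    rwa [IsSeparable, S.minpoly_eq_eisPoly hn hE hy] at hs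
  rw [Multiset.toFinset_card_of_nodup (nodup_roots hsep.map),
    IsAlgClosed.card_aroots_eq_natDegree, hf, eisPoly_natDegree]

/-- **Serre's mass formula**. -/
theorem hasSum_weight (hn : n ≠ 0) :
    HasSum (fun L : {L : IntermediateField K Ω // S.IsTotRam n L} => S.weight n L) n := by
  classical
  refine hasSum_of_isLUB_of_nonneg _ (fun L => S.weight_nonneg n L) ⟨?_, fun b hb => ?_⟩
  · rintro _ ⟨s, rfl⟩
    set D := s.sup fun L => S.discExp n L.1 with hDdef
    have hD : 2 * D + 2 ≤ n * (2 * D + 2) := Nat.le_mul_of_pos_left _ (Nat.pos_of_ne_zero hn)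
    have h1 := S.card_pairs_eq hn hD
    have h2 : (S.pairs n (2 * D) D).card ≤ n * (S.coeffSet n (2 * D)).card := S.card_pairs_le _ _
    have hpos : (0 : ℝ) < (S.coeffSet n (2 * D)).card := by
      obtain ⟨j, rfl⟩ := Nat.exists_eq_add_one.2 (Nat.pos_of_ne_zero hn)
      rw [S.card_coeffSet]
      have := S.one_lt_q
      exact_mod_cast Nat.mul_pos (Nat.mul_pos (by omega) (pow_pos (by omega) _))
        (pow_pos (pow_pos (by omega) _) _)
    change ∑ L ∈ s, S.weight n L.1 ≤ n
    have hsub : s.map (Function.Embedding.subtype _) ⊆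
        (S.pairs n (2 * D) D).image (fun p => K⟮p.2⟯) := fun L hL => by
      obtain ⟨⟨L, hT⟩, hLs, rfl⟩ := Finset.mem_map.1 hL
      exact (S.mem_image_pairs hn hD).2 ⟨hT, Finset.le_sup (f := fun L : {L // S.IsTotRam n L} =>
        S.discExp n L.1) hLs⟩
    have h3 := Finset.sum_le_sum_of_subset_of_nonneg hsub fun L _ _ => S.weight_nonneg n L
    rw [Finset.sum_map] at h3
    refine h3.trans (le_of_mul_le_mul_left ?_ hpos)
    rw [← h1, mul_comm (((S.coeffSet n (2 * D)).card : ℕ) : ℝ)]
    exact_mod_cast h2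
  · have key : ∀ k, 1 ≤ k →
        (n : ℝ) * (1 - (S.q : ℝ) * ((S.q : ℝ)⁻¹) ^ k) ≤ b := by
      intro k hk
      have hD : 2 * (n * k) + 2 ≤ n * (2 * k + 2) := by
        have := Nat.pos_of_ne_zero hn
        nlinarith
      set m := 2 * k with hm
      set D := n * k with hDk
      have h1 := S.card_pairs_eq hn hD
      have hall : ∀ L ∈ (S.pairs n m D).image (fun p => K⟮p.2⟯), S.IsTotRam n L := fun L hL =>
        ((S.mem_image_pairs hn hD).1 hL).1
      have hb' : ∑ L ∈ (S.pairs n m D).image (fun p => K⟮p.2⟯), S.weight n L ≤ b := by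
        rw [← Finset.sum_subtype_of_mem (p := S.IsTotRam n) _ hall]
        exact hb ⟨_, rfl⟩
      set bad := (S.coeffSet n m).filter fun c => n ≠ 1 ∧ S.μ (S.coeffOf c 1) < S.ρ ^ k with hbad
      have hgood : n * ((S.coeffSet n m).card - bad.card) ≤ (S.pairs n m D).card := by
        rw [← Finset.card_sdiff_of_subset (Finset.filter_subset _ _), pairs, Finset.card_sigma,
          mul_comm]
        refine le_trans ?_ (Finset.sum_le_sum_of_subset (Finset.sdiff_subset
          (s := S.coeffSet n m) (t := bad)))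
        refine Finset.card_nsmul_le_sum _ _ _ fun c hc => ?_
        rw [Finset.mem_sdiff, Finset.mem_filter] at hc
        refine (S.card_good_roots hn hc.1 (or_iff_not_imp_left.2 fun h1 => ?_)).ge
        rw [hDk, pow_mul, S.t_pow hn]
        exact not_lt.1 fun hlt => hc.2 ⟨hc.1, h1, hlt⟩
      have hbadle : bad.card * S.q ^ k ≤ S.q * (S.coeffSet n m).card := by
        rcases eq_or_ne n 1 with rfl | hn1
        · simp [hbad]
        obtain ⟨j, rfl⟩ : ∃ j, n = j + 2 := ⟨n - 2, by omega⟩
        refine le_trans (Nat.mul_le_mul_right _ (Finset.card_le_card ?_))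
          (S.card_bad_le j k (k + 2) m (by omega))
        intro c hc
        rw [hbad, Finset.mem_filter] at hc
        exact Finset.mem_filter.2 ⟨hc.1, hc.2.2⟩
      have hpos : (0 : ℝ) < (S.coeffSet n m).card := by
        obtain ⟨j, rfl⟩ := Nat.exists_eq_add_one.2 (Nat.pos_of_ne_zero hn)
        rw [S.card_coeffSet]
        have := S.one_lt_q
        exact_mod_cast Nat.mul_pos (Nat.mul_pos (by omega) (pow_pos (by omega) _))
          (pow_pos (pow_pos (by omega) _) _)
      refine le_trans (le_of_mul_le_mul_left ?_ hpos) hb'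
      rw [← h1]
      have hq : (0 : ℝ) < S.q := by exact_mod_cast (by linarith [S.one_lt_q] : 0 < S.q)
      have hg : (n : ℝ) * (((S.coeffSet n m).card : ℝ) - bad.card) ≤ (S.pairs n m D).card := by
        rw [← Nat.cast_sub (Finset.card_le_card (Finset.filter_subset _ _))]
        exact_mod_cast hgood
      refine le_trans ?_ hg
      rw [mul_left_comm]
      refine mul_le_mul_of_nonneg_left ?_ (Nat.cast_nonneg _)
      have hb2 : (bad.card : ℝ) * (S.q : ℝ) ^ k ≤ S.q * (S.coeffSet n m).card := by
        exact_mod_cast hbadle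
      rw [← le_div_iff₀ (pow_pos hq k)] at hb2
      rw [inv_pow, mul_sub, mul_one]
      have e : ((S.coeffSet n m).card : ℝ) * ((S.q : ℝ) * ((S.q : ℝ) ^ k)⁻¹) =
          (S.q : ℝ) * (S.coeffSet n m).card / (S.q : ℝ) ^ k := by ring
      rw [e]
      linarith
    have hlim : Filter.Tendsto (fun k : ℕ => (n : ℝ) * (1 - (S.q : ℝ) * ((S.q : ℝ)⁻¹) ^ k))
        Filter.atTop (nhds ((n : ℝ) * (1 - (S.q : ℝ) * 0))) := by
      have h1 : (1 : ℝ) < S.q := by exact_mod_cast S.one_lt_q
      exact tendsto_const_nhds.mul (tendsto_const_nhds.sub (tendsto_const_nhds.mul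
        (tendsto_pow_atTop_nhds_zero_of_lt_one (inv_nonneg.2 (by linarith))
          (inv_lt_one_of_one_lt₀ h1))))
    simp only [mul_zero, sub_zero, mul_one] at hlim
    exact le_of_tendsto hlim (Filter.eventually_atTop.2 ⟨1, key⟩)

end Fermat.Agent.SerreMass.Setting
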