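import Fermat.Agent.SerreMass.Main
import Mathlib.NumberTheory.Padics.Complex
import Mathlib.NumberTheory.Padics.RingHoms

/-!
# The settings of complete fields and of `ℚ_[p]`
-/

set_option autoImplicit false

noncomputable section

namespace Fermat.Agent.SerreMass

/-- A complete discretely valued field with finite residue field gives a setting on its algebraic
closure, by the spectral norm. -/
def Setting.ofComplete (K : Type*) [NontriviallyNormedField K] [CompleteSpace K]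
    [IsUltrametricDist K] (ϖ : K) (h0 : 0 < ‖ϖ‖) (h1 : ‖ϖ‖ < 1)
    (hdisc : ∀ a : K, a ≠ 0 → ∃ k : ℤ, ‖a‖ = ‖ϖ‖ ^ k) (R : Finset K) (hR0 : (0 : K) ∈ R)
    (hR : ∀ r ∈ R, ‖r‖ ≤ 1) (hrep : ∀ a : K, ‖a‖ ≤ 1 → ∃! r, r ∈ R ∧ ‖a - r‖ < 1) :
    Setting K (AlgebraicClosure K) where
  ν :=
    { toFun := spectralNorm K (AlgebraicClosure K)
      map_mul' := fun x y => map_mul (spectralMulAlgNorm K (AlgebraicClosure K)) x y
      nonneg' := fun x => spectralNorm_nonneg x
      eq_zero' := fun x => map_eq_zero_iff_eq_zero (spectralMulAlgNorm K (AlgebraicClosure K))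
      add_le' := fun x y => map_add_le_add (spectralMulAlgNorm K (AlgebraicClosure K)) x y }
  nonarch x y := isNonarchimedean_spectralNorm x y
  invariant σ x := (spectralNorm_eq_of_equiv σ x).symm
  ϖ := ϖ
  ϖ_pos := h0.trans_eq (spectralNorm_extends ϖ).symm
  ϖ_lt := (spectralNorm_extends ϖ).trans_lt h1
  discrete a ha := by
    obtain ⟨k, hk⟩ := hdisc a ha
    refine ⟨k, ?_⟩
    change spectralNorm K (AlgebraicClosure K) (algebraMap K _ a) =
      spectralNorm K (AlgebraicClosure K) (algebraMap K _ ϖ) ^ k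
    rw [spectralNorm_extends, spectralNorm_extends, hk]
  R := R
  zero_mem := hR0
  R_le r hr := (spectralNorm_extends r).trans_le (hR r hr)
  rep a ha := by
    change spectralNorm K (AlgebraicClosure K) (algebraMap K _ a) ≤ 1 at ha
    rw [spectralNorm_extends] at ha
    change ∃! r, r ∈ R ∧ spectralNorm K (AlgebraicClosure K) (algebraMap K _ (a - r)) < 1
    simp only [spectralNorm_extends]
    exact hrep a ha

variable (p : ℕ) [hp : Fact p.Prime]

/-- The representatives `0, …, p - 1`. -/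
def padicReps : Finset ℚ_[p] := (Finset.range p).map ⟨Nat.cast, Nat.cast_injective⟩

theorem padic_rep (a : ℚ_[p]) (ha : ‖a‖ ≤ 1) :
    ∃! r, r ∈ padicReps p ∧ ‖a - r‖ < 1 := by
  obtain ⟨a, rfl⟩ : ∃ z : ℤ_[p], (z : ℚ_[p]) = a := ⟨⟨a, ha⟩, rfl⟩
  obtain ⟨m, ⟨hm, hm'⟩, huniq⟩ := PadicInt.existsUnique_mem_range a
  have key : ∀ i : ℕ, (a - i ∈ IsLocalRing.maximalIdeal ℤ_[p]) ↔
      ‖(a : ℚ_[p]) - (i : ℚ_[p])‖ < 1 := fun i => by
    rw [IsLocalRing.mem_maximalIdeal, PadicInt.mem_nonunits, PadicInt.norm_def, PadicInt.coe_sub,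
      PadicInt.coe_natCast]
  refine ⟨m, ⟨Finset.mem_map.2 ⟨m, Finset.mem_range.2 hm, rfl⟩, (key m).1 hm'⟩, ?_⟩
  rintro r ⟨hr, hr'⟩
  obtain ⟨i, hi, rfl⟩ := Finset.mem_map.1 hr
  exact congrArg _ (huniq i ⟨Finset.mem_range.1 hi, (key i).2 hr'⟩)

/-- The setting of `ℚ_[p]`. -/
def padicSetting : Setting ℚ_[p] (AlgebraicClosure ℚ_[p]) :=
  Setting.ofComplete ℚ_[p] (p : ℚ_[p])
    (by rw [Padic.norm_p]; exact inv_pos.2 (by exact_mod_cast hp.out.pos))
    (Padic.norm_p_lt_one)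
    (fun a ha => ⟨a.valuation, by
      rw [Padic.norm_eq_zpow_neg_valuation ha, Padic.norm_p, inv_zpow']⟩)
    (padicReps p)
    (Finset.mem_map.2 ⟨0, Finset.mem_range.2 hp.out.pos, Nat.cast_zero⟩)
    (fun r hr => by
      obtain ⟨i, -, rfl⟩ := Finset.mem_map.1 hr
      change ‖((i : ℕ) : ℚ_[p])‖ ≤ 1
      rw [← PadicInt.coe_natCast]
      exact PadicInt.norm_le_one (i : ℤ_[p]))
    (padic_rep p)

theorem padicSetting_q : (padicSetting p).q = p := by
  change (padicReps p).card = p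
  rw [padicReps, Finset.card_map, Finset.card_range]

end Fermat.Agent.SerreMass
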